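/-
S15 cell, brick (M2)(d) [NodalRed] (helper69; second seat of helper89's (M2), report #4757).

Reduction of torsion points of order prime to the residue characteristic to the NONSINGULAR
locus of a possibly singular reduced Weierstrass curve (no hypothesis on the discriminant of
the reduced curve).  Everything is built on `S58/Red/Core` (`Rd`, `Model`, `add_rd` and its
ingredients, none of which uses good reduction) and `S58/Red/Tors` (`mem_of_zsmul_eq_zero`).

* `RedTo A π P P'` : the point `P` has nonsingular reduction `P'` (a point of the group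
  `Wk.Point` of nonsingular points of the reduced curve).
* `redTo_add`, `redTo_neg`, `redTo_nsmul`, `redTo_zsmul` : `RedTo` is compatible with the group
  laws (on torsion of order prime to the residue characteristic).
* `exists_red_order` : a point of prime order `p` with nonsingular reduction `R'`: `R'` has order
  exactly `p` and `j • R` reduces to `j • R'` for all `j`.
* `sing_of_not` : all-or-nothing — if a point `R` of prime order `p` has no nonsingular
  reduction, every `j • R` (`p ∤ j`) is integral and reduces to a singular point.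
* `inZero_iff` and corollaries : the bridge to the Prelude's `InZeroComponentAt`.
-/
import Mathlib
import Fermat.Prelude.Def_EllipticCurve_ZeroComponentAt
import Fermat.Agent.S58.Red.Core
import Fermat.Agent.S58.Red.Tors
import Fermat.Agent.S58.Red.Inst

set_option autoImplicit false
set_option linter.unusedSectionVars false
set_option linter.style.haveILetI false

namespace Fermat.Agent.S15P.M2.NodalRed69

open WeierstrassCurve WeierstrassCurve.Affine
open Fermat.Agent.S58.Red

section Gen

variable {K : Type*} [Field K] [DecidableEq K] {A : ValuationSubring K}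
  {k : Type*} [Field k] [DecidableEq k] {π : A →+* k}
  {WK : Affine K} {Wk : Affine k}

/-- `P` has nonsingular reduction `P'`: either both are the point at infinity, or both are
affine and the coordinates of `P` are integral and reduce to those of `P'`. -/
def RedTo (A : ValuationSubring K) (π : A →+* k) : WK.Point → Wk.Point → Prop
  | .zero, .zero => True
  | .some x y _, .some c d _ => Rd A π x c ∧ Rd A π y d
  | .zero, .some _ _ _ => False
  | .some _ _ _, .zero => False

theorem redTo_zero : RedTo A π (0 : WK.Point) (0 : Wk.Point) := trivial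

theorem redTo_some {x y : K} {h : WK.Nonsingular x y} {c d : k} {g : Wk.Nonsingular c d} :
    RedTo A π (Point.some x y h) (Point.some c d g) ↔ Rd A π x c ∧ Rd A π y d := Iff.rfl

theorem RedTo.unique {P : WK.Point} {P' P'' : Wk.Point} (h : RedTo A π P P')
    (h' : RedTo A π P P'') : P' = P'' := by
  rcases P with _ | ⟨x, y, hxy⟩ <;> rcases P' with _ | ⟨c, d, g⟩ <;>
    rcases P'' with _ | ⟨c', d', g'⟩
  · rfl
  · exact h'.elim
  · exact h.elim
  · exact h.elim
  · exact h.elim
  · exact h.elim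
  · exact h'.elim
  · have h1 : Rd A π x c ∧ Rd A π y d := h
    have h2 : Rd A π x c' ∧ Rd A π y d' := h'
    rw [Point.some.injEq]
    exact ⟨h1.1.unique h2.1, h1.2.unique h2.2⟩

theorem RedTo.eq_zero_iff {P : WK.Point} {P' : Wk.Point} (h : RedTo A π P P') :
    P' = 0 ↔ P = 0 := by
  rcases P with _ | ⟨x, y, hxy⟩ <;> rcases P' with _ | ⟨c, d, g⟩
  · exact ⟨fun _ => rfl, fun _ => rfl⟩
  · exact h.elim
  · exact h.elim
  · exact ⟨fun h0 => absurd h0 (Point.some_ne_zero _), fun h0 => absurd h0 (Point.some_ne_zero _)⟩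

theorem RedTo.isInt {P : WK.Point} {P' : Wk.Point} (h : RedTo A π P P') : IsInt A P := by
  rcases P with _ | ⟨x, y, hxy⟩ <;> rcases P' with _ | ⟨c, d, g⟩
  · trivial
  · trivial
  · exact h.elim
  · have h1 : Rd A π x c ∧ Rd A π y d := h
    exact ⟨h1.1.mem, h1.2.mem⟩

theorem redTo_neg (M : Model A π WK Wk) {P : WK.Point} {P' : Wk.Point} (h : RedTo A π P P') :
    RedTo A π (-P) (-P') := by
  rcases P with _ | ⟨x, y, hxy⟩ <;> rcases P' with _ | ⟨c, d, g⟩
  · exact redTo_zero
  · exact h.elim
  · exact h.elim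
  · have h1 : Rd A π x c ∧ Rd A π y d := h
    rw [Point.neg_some, Point.neg_some]
    exact ⟨h1.1, M.negY h1.1 h1.2⟩

variable [IsLocalHom π]

/-- **Nonsingular reduction is compatible with the chord-tangent law**, when the sum is
integral. -/
theorem redTo_add (M : Model A π WK Wk) {P Q : WK.Point} {P' Q' : Wk.Point}
    (hP : RedTo A π P P') (hQ : RedTo A π Q Q') (hint : IsInt A (P + Q)) :
    RedTo A π (P + Q) (P' + Q') := by
  rcases P with _ | ⟨x₁, y₁, h₁⟩ <;> rcases P' with _ | ⟨c₁, d₁, g₁⟩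
  · change RedTo A π (0 + Q) (0 + Q')
    rw [zero_add, zero_add]
    exact hQ
  · exact hP.elim
  · exact hP.elim
  rcases Q with _ | ⟨x₂, y₂, h₂⟩ <;> rcases Q' with _ | ⟨c₂, d₂, g₂⟩
  · change RedTo A π (Point.some x₁ y₁ h₁ + 0) (Point.some c₁ d₁ g₁ + 0)
    rw [add_zero, add_zero]
    exact hP
  · exact hQ.elim
  · exact hQ.elim
  obtain ⟨rx₁, ry₁⟩ : Rd A π x₁ c₁ ∧ Rd A π y₁ d₁ := hP
  obtain ⟨rx₂, ry₂⟩ : Rd A π x₂ c₂ ∧ Rd A π y₂ d₂ := hQ
  by_cases hxy : x₁ = x₂ ∧ y₁ = WK.negY x₂ y₂
  · have hc : c₁ = c₂ := (rx₁.congr hxy.1).unique rx₂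
    have hd : d₁ = Wk.negY c₂ d₂ := (ry₁.congr hxy.2).unique (M.negY rx₂ ry₂)
    rw [Point.add_of_Y_eq hxy.1 hxy.2, Point.add_of_Y_eq hc hd]
    exact redTo_zero
  · rw [Point.add_some hxy] at hint ⊢
    have hX : WK.addX x₁ x₂ (WK.slope x₁ x₂ y₁ y₂) ∈ A := hint.1
    have hcd : ¬(c₁ = c₂ ∧ d₁ = Wk.negY c₂ d₂) := fun hcd =>
      addX_not_mem M h₁.1 h₂.1 rx₁ ry₁ rx₂ ry₂ g₁ hcd.1 hcd.2 hxy hX
    have rL := slope_rd M h₁.1 h₂.1 rx₁ ry₁ rx₂ ry₂ hxy hcd
    rw [Point.add_some hcd]
    exact ⟨M.addX rx₁ rx₂ rL, M.addY rx₁ rx₂ ry₁ rL⟩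

/-- Multiples of a torsion point (of order prime to the residue characteristic) with
nonsingular reduction. -/
theorem redTo_nsmul (M : Model A π WK Wk) {P : WK.Point} {P' : Wk.Point}
    (hP : RedTo A π P P') (hT : P ∈ torsSub k WK) (n : ℕ) : RedTo A π (n • P) (n • P') := by
  induction n with
  | zero =>
    rw [zero_smul, zero_smul]
    exact redTo_zero
  | succ n ih =>
    rw [succ_nsmul, succ_nsmul]
    refine redTo_add M ih hP ?_
    rw [← succ_nsmul]
    exact isInt_of_mem_torsSub M ((torsSub k WK).nsmul_mem hT _)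

theorem redTo_zsmul (M : Model A π WK Wk) {P : WK.Point} {P' : Wk.Point}
    (hP : RedTo A π P P') (hT : P ∈ torsSub k WK) (n : ℤ) : RedTo A π (n • P) (n • P') := by
  rcases Int.eq_nat_or_neg n with ⟨m, rfl | rfl⟩
  · rw [natCast_zsmul, natCast_zsmul]
    exact redTo_nsmul M hP hT m
  · rw [neg_smul, neg_smul, natCast_zsmul, natCast_zsmul]
    exact redTo_neg M (redTo_nsmul M hP hT m)

/-- A point of prime order `p` (prime to the residue characteristic) with nonsingular reduction
`R'`: `R'` has exact order `p`, and `j • R` has nonsingular reduction `j • R'` for every `j`. -/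
theorem exists_red_order (M : Model A π WK Wk) {R : WK.Point} {p : ℕ} (hp : p.Prime)
    (hpk : (p : k) ≠ 0) (hR : addOrderOf R = p) {R' : Wk.Point} (h : RedTo A π R R') :
    addOrderOf R' = p ∧ ∀ j : ℕ, RedTo A π (j • R) (j • R') := by
  have hpR : p • R = 0 := by rw [← hR]; exact addOrderOf_nsmul_eq_zero R
  have hT : R ∈ torsSub k WK := mem_torsSub_of_nsmul hpk hpR
  have hall : ∀ j : ℕ, RedTo A π (j • R) (j • R') := redTo_nsmul M h hT
  refine ⟨?_, hall⟩
  have h0 : p • R' = 0 := (hall p).eq_zero_iff.mpr hpR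
  have hne : R' ≠ 0 := by
    intro h0'
    have : R = 0 := h.eq_zero_iff.mp h0'
    rw [this, addOrderOf_zero] at hR
    exact hp.one_lt.ne hR
  have hdvd : addOrderOf R' ∣ p := addOrderOf_dvd_of_nsmul_eq_zero h0
  rcases (Nat.dvd_prime hp).mp hdvd with h1 | h1
  · exact absurd (AddMonoid.addOrderOf_eq_one_iff.mp h1) hne
  · exact h1

/-- **All or nothing.** If a point `R` of prime order `p` (prime to the residue characteristic)
has no nonsingular reduction, then every `j • R` with `p ∤ j` is an integral affine point whose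
reduction is a singular point of the reduced curve. -/
theorem sing_of_not (M : Model A π WK Wk) {R : WK.Point} {p : ℕ} (hp : p.Prime)
    (hpk : (p : k) ≠ 0) (hR : addOrderOf R = p) (hno : ¬ ∃ R' : Wk.Point, RedTo A π R R')
    (j : ℕ) (hj : ¬ p ∣ j) :
    ∃ (x y : K) (h : WK.Nonsingular x y) (c d : k), j • R = Point.some x y h ∧
      Rd A π x c ∧ Rd A π y d ∧ Wk.Equation c d ∧ ¬ Wk.Nonsingular c d := by
  have hpR : p • R = 0 := by rw [← hR]; exact addOrderOf_nsmul_eq_zero R
  have hT : R ∈ torsSub k WK := mem_torsSub_of_nsmul hpk hpR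
  have hjT : j • R ∈ torsSub k WK := (torsSub k WK).nsmul_mem hT _
  have hj0 : j • R ≠ 0 := by
    intro h0
    exact hj (hR ▸ addOrderOf_dvd_of_nsmul_eq_zero h0)
  rcases hjR : j • R with _ | ⟨x, y, h⟩
  · exact absurd hjR hj0
  have hint : x ∈ A ∧ y ∈ A := by
    have := isInt_of_mem_torsSub M hjT
    rw [hjR] at this
    exact this
  have rx := rd_of_mem (π := π) hint.1
  have ry := rd_of_mem (π := π) hint.2
  refine ⟨x, y, h, _, _, rfl, rx, ry, M.equation h.1 rx ry, ?_⟩
  intro g
  apply hno
  have hred : RedTo A π (j • R) (Point.some _ _ g) := by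
    rw [hjR]
    exact ⟨rx, ry⟩
  -- invert `j` modulo `p`
  have hcop : Nat.Coprime j p := (Nat.Coprime.symm ((Nat.Prime.coprime_iff_not_dvd hp).mpr hj))
  obtain ⟨i, -, hi⟩ := Nat.exists_mul_mod_eq_one_of_coprime hcop hp.one_lt
  have hR' : (i * j) • R = R := by
    have e : i * j = p * (i * j / p) + 1 := by
      have := Nat.div_add_mod (i * j) p
      rw [mul_comm j i] at hi
      omega
    rw [e, add_smul, mul_smul, one_smul]
    have : p • ((i * j / p) • R) = 0 := by
      rw [smul_comm, hpR, smul_zero]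
    rw [this, zero_add]
  have := redTo_nsmul M hred hjT i
  rw [← mul_smul, hR'] at this
  exact ⟨_, this⟩

end Gen

/-! ### The bridge to the Prelude's `InZeroComponentAt` -/

section Bridge

open IsLocalRing

variable (W : WeierstrassCurve ℤ) (A : ValuationSubring (AlgebraicClosure ℚ))

/-- The curve over `ℚ̄` of an integral model, with its reduction to the residue field of `A`
(in the literal shape of the Prelude's `InZeroComponentAt`), is a model in the sense of
`S58/Red/Core`.  No hypothesis on the discriminant. -/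
theorem model_res : Model A (residue A)
    ((W.map (Int.castRingHom ℚ))⁄(AlgebraicClosure ℚ)).toAffine
    (W.map (Int.castRingHom (ResidueField A))).toAffine := by
  have key : ∀ n : ℤ, Rd A (residue A) (algebraMap ℚ (AlgebraicClosure ℚ) (Int.castRingHom ℚ n))
      (Int.castRingHom (ResidueField A) n) := by
    intro n
    have := rd_intCast A (residue A) n
    simpa using this
  exact ⟨key _, key _, key _, key _, key _⟩

variable {W A}
variable [DecidableEq (ResidueField A)]

/-- **Bridge.** For a torsion point of order prime to the residue characteristic, the Prelude's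
`InZeroComponentAt` says exactly that the point has a nonsingular reduction. -/
theorem inZero_iff {Q : ((W.map (Int.castRingHom ℚ))⁄(AlgebraicClosure ℚ)).Point}
    (hT : Q ∈ torsSub (ResidueField A) ((W.map (Int.castRingHom ℚ))⁄(AlgebraicClosure ℚ)).toAffine) :
    W.InZeroComponentAt A Q ↔
      ∃ Q' : (W.map (Int.castRingHom (ResidueField A))).toAffine.Point,
        RedTo A (residue A) Q Q' := by
  have M := model_res W A
  constructor
  · rintro (rfl | ⟨x, y, h, rfl, hx | ⟨hx, hy, g⟩⟩)
    · exact ⟨0, redTo_zero⟩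
    · exact absurd (isInt_of_mem_torsSub M hT).1 hx
    · exact ⟨Point.some _ _ g, rd_of_mem hx, rd_of_mem hy⟩
  · rintro ⟨Q', hQ'⟩
    rcases Q with _ | ⟨x, y, h⟩
    · exact Or.inl rfl
    · rcases Q' with _ | ⟨c, d, g⟩
      · exact hQ'.elim
      · obtain ⟨rx, ry⟩ : Rd A (residue A) x c ∧ Rd A (residue A) y d := hQ'
        refine Or.inr ⟨x, y, h, rfl, Or.inr ⟨rx.mem, ry.mem, ?_⟩⟩
        have hc : residue A ⟨x, rx.mem⟩ = c := (rd_of_mem rx.mem).unique rx
        have hd : residue A ⟨y, ry.mem⟩ = d := (rd_of_mem ry.mem).unique ry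
        rw [hc, hd]
        exact g

/-- On torsion of order prime to the residue characteristic, the points in the zero component
are closed under addition. -/
theorem inZero_add {P Q : ((W.map (Int.castRingHom ℚ))⁄(AlgebraicClosure ℚ)).Point}
    (hTP : P ∈ torsSub (ResidueField A) ((W.map (Int.castRingHom ℚ))⁄(AlgebraicClosure ℚ)).toAffine)
    (hTQ : Q ∈ torsSub (ResidueField A) ((W.map (Int.castRingHom ℚ))⁄(AlgebraicClosure ℚ)).toAffine)
    (hP : W.InZeroComponentAt A P) (hQ : W.InZeroComponentAt A Q) :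
    W.InZeroComponentAt A (P + Q) := by
  have M := model_res W A
  have hTPQ := (torsSub (ResidueField A) _).add_mem hTP hTQ
  obtain ⟨P', hP'⟩ := (inZero_iff hTP).mp hP
  obtain ⟨Q', hQ'⟩ := (inZero_iff hTQ).mp hQ
  exact (inZero_iff hTPQ).mpr ⟨P' + Q', redTo_add M hP' hQ' (isInt_of_mem_torsSub M hTPQ)⟩

/-- ... and under integer multiples. -/
theorem inZero_zsmul {P : ((W.map (Int.castRingHom ℚ))⁄(AlgebraicClosure ℚ)).Point}
    (hTP : P ∈ torsSub (ResidueField A) ((W.map (Int.castRingHom ℚ))⁄(AlgebraicClosure ℚ)).toAffine)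
    (hP : W.InZeroComponentAt A P) (n : ℤ) : W.InZeroComponentAt A (n • P) := by
  have M := model_res W A
  obtain ⟨P', hP'⟩ := (inZero_iff hTP).mp hP
  exact (inZero_iff ((torsSub (ResidueField A) _).zsmul_mem hTP n)).mpr
    ⟨n • P', redTo_zsmul M hP' hTP n⟩

/-- A point of prime order `p` is in the prime-to-`ℓ` torsion, for `A` over `ℓ ≠ p`. -/
theorem mem_torsSub_of_order {p ℓ : ℕ} (hp : p.Prime) (hℓ : ℓ.Prime) (hℓp : ℓ ≠ p)
    (hA : A.LiesOverPrime ℓ) {Q : ((W.map (Int.castRingHom ℚ))⁄(AlgebraicClosure ℚ)).Point}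
    (hQ : p • Q = 0) :
    (p : ResidueField A) ≠ 0 ∧
      Q ∈ torsSub (ResidueField A) ((W.map (Int.castRingHom ℚ))⁄(AlgebraicClosure ℚ)).toAffine := by
  have : CharP (ResidueField A) ℓ :=
    Fermat.Agent.ESJ.Cong.ConjAnalytic.charP_residueField_of_liesOver A hℓ hA
  have hpk : (p : ResidueField A) ≠ 0 := by
    intro h
    have hdvd : ℓ ∣ p := (CharP.cast_eq_zero_iff (ResidueField A) ℓ p).mp h
    exact hℓp ((Nat.prime_dvd_prime_iff_eq hℓ hp).mp hdvd)
  exact ⟨hpk, mem_torsSub_of_nsmul hpk hQ⟩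

/-- **(M2)(d), zero-component case.** `Q` of prime order `p`, `A` over `ℓ ≠ p`, `Q` in the zero
component at `A`: there is a point `Q'` of exact order `p` in the group of nonsingular points of
the reduced curve such that every `j • Q` has nonsingular reduction `j • Q'`. -/
theorem exists_red_of_inZero {p ℓ : ℕ} (hp : p.Prime) (hℓ : ℓ.Prime) (hℓp : ℓ ≠ p)
    (hA : A.LiesOverPrime ℓ) {Q : ((W.map (Int.castRingHom ℚ))⁄(AlgebraicClosure ℚ)).Point}
    (hQord : addOrderOf Q = p) (hin : W.InZeroComponentAt A Q) :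
    ∃ Q' : (W.map (Int.castRingHom (ResidueField A))).toAffine.Point,
      addOrderOf Q' = p ∧ ∀ j : ℕ, RedTo A (residue A) (j • Q) (j • Q') := by
  have hpQ : p • Q = 0 := by rw [← hQord]; exact addOrderOf_nsmul_eq_zero Q
  obtain ⟨hpk, hT⟩ := mem_torsSub_of_order (W := W) hp hℓ hℓp hA hpQ
  obtain ⟨Q', hQ'⟩ := (inZero_iff hT).mp hin
  exact ⟨Q', exists_red_order (model_res W A) hp hpk hQord hQ'⟩

/-- **(M2)(d), other case (all or nothing).** `Q` of prime order `p`, `A` over `ℓ ≠ p`, `Q` NOT
in the zero component at `A`: every `j • Q` with `p ∤ j` is an integral affine point whose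
reduction is a singular point of the reduced curve. -/
theorem sing_of_not_inZero {p ℓ : ℕ} (hp : p.Prime) (hℓ : ℓ.Prime) (hℓp : ℓ ≠ p)
    (hA : A.LiesOverPrime ℓ) {Q : ((W.map (Int.castRingHom ℚ))⁄(AlgebraicClosure ℚ)).Point}
    (hQord : addOrderOf Q = p) (hout : ¬ W.InZeroComponentAt A Q) (j : ℕ) (hj : ¬ p ∣ j) :
    ∃ (x y : AlgebraicClosure ℚ)
      (h : ((W.map (Int.castRingHom ℚ))⁄(AlgebraicClosure ℚ)).toAffine.Nonsingular x y)
      (c d : ResidueField A), j • Q = Point.some x y h ∧
      Rd A (residue A) x c ∧ Rd A (residue A) y d ∧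
      (W.map (Int.castRingHom (ResidueField A))).toAffine.Equation c d ∧
      ¬ (W.map (Int.castRingHom (ResidueField A))).toAffine.Nonsingular c d := by
  have hpQ : p • Q = 0 := by rw [← hQord]; exact addOrderOf_nsmul_eq_zero Q
  obtain ⟨hpk, hT⟩ := mem_torsSub_of_order (W := W) hp hℓ hℓp hA hpQ
  exact sing_of_not (model_res W A) hp hpk hQord (fun h => hout ((inZero_iff hT).mpr h)) j hj

omit [DecidableEq (ResidueField A)] in
/-- **All or nothing**, in terms of the Prelude's predicate. -/
theorem inZero_nsmul_iff {p ℓ : ℕ} (hp : p.Prime) (hℓ : ℓ.Prime) (hℓp : ℓ ≠ p)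
    (hA : A.LiesOverPrime ℓ) {Q : ((W.map (Int.castRingHom ℚ))⁄(AlgebraicClosure ℚ)).Point}
    (hQord : addOrderOf Q = p) (j : ℕ) (hj : ¬ p ∣ j) :
    W.InZeroComponentAt A (j • Q) ↔ W.InZeroComponentAt A Q := by
  let _ : DecidableEq (ResidueField A) := Classical.decEq _
  have hpQ : p • Q = 0 := by rw [← hQord]; exact addOrderOf_nsmul_eq_zero Q
  obtain ⟨hpk, hT⟩ := mem_torsSub_of_order (W := W) hp hℓ hℓp hA hpQ
  have hjT := (torsSub (ResidueField A) _).nsmul_mem hT j
  constructor
  · intro hin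
    by_contra hout
    obtain ⟨x, y, h, c, d, hjQ, rx, ry, -, hns⟩ :=
      sing_of_not_inZero hp hℓ hℓp hA hQord hout j hj
    obtain ⟨Q', hQ'⟩ := (inZero_iff hjT).mp hin
    rw [hjQ] at hQ'
    rcases Q' with _ | ⟨c', d', g⟩
    · exact hQ'.elim
    · obtain ⟨rx', ry'⟩ : Rd A (residue A) x c' ∧ Rd A (residue A) y d' := hQ'
      rw [rx.unique rx', ry.unique ry'] at hns
      exact hns g
  · intro hin
    have := inZero_zsmul hT hin (j : ℤ)
    rwa [natCast_zsmul] at this

end Bridge

end Fermat.Agent.S15P.M2.NodalRed69
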