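/-
S15 cell, brick (M2) (helper89): definitions.

For a point `Q` of a Weierstrass curve `W` over a field, the Vélu quantities of the quotient by
`⟨Q⟩` (`Q` of order `p`):

* `tq P = 6x² + b₂x + b₄` (`= ℘''`), `psi2 P = 2y + a₁x + a₃` (`= ℘'`);
* `veluC4 p Q = c₄ + 120 ∑_{0<k<p} tq (k • Q)` : the `c₄` of the quotient curve;
* `veluPsi p Q = ∏_{0<k<p} psi2 (k • Q)` : the discriminant of the quotient curve is
  `Δ ^ p / veluPsi p Q ^ 4`.
-/
import Mathlib

set_option autoImplicit false

namespace Fermat.Agent.S15P.M2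

open WeierstrassCurve

/-- The `x`-coordinate of a point (junk value `0` at the origin). -/
def ptX {F : Type*} [Field F] {W : Affine F} : W.Point → F
  | .zero => 0
  | .some x _ _ => x

/-- The `y`-coordinate of a point (junk value `0` at the origin). -/
def ptY {F : Type*} [Field F] {W : Affine F} : W.Point → F
  | .zero => 0
  | .some _ y _ => y

/-- `6x² + b₂x + b₄` at a point. -/
def tq {F : Type*} [Field F] {W : Affine F} (P : W.Point) : F :=
  6 * ptX P ^ 2 + W.b₂ * ptX P + W.b₄

/-- `2y + a₁x + a₃` at a point. -/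
def psi2 {F : Type*} [Field F] {W : Affine F} (P : W.Point) : F :=
  2 * ptY P + W.a₁ * ptX P + W.a₃

/-- The `c₄` of the quotient of `W` by the subgroup generated by a point `Q` of order `p`. -/
def veluC4 {F : Type*} [Field F] [DecidableEq F] {W : Affine F} (p : ℕ) (Q : W.Point) : F :=
  W.c₄ + 120 * ∑ k ∈ Finset.Ico 1 p, tq (k • Q)

/-- The product of the `psi2 (k • Q)`, `0 < k < p`. -/
def veluPsi {F : Type*} [Field F] [DecidableEq F] {W : Affine F} (p : ℕ) (Q : W.Point) : F :=
  ∏ k ∈ Finset.Ico 1 p, psi2 (k • Q)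

@[simp] theorem ptX_some {F : Type*} [Field F] {W : Affine F} (x y : F) (h : W.Nonsingular x y) :
    ptX (Affine.Point.some x y h) = x := rfl

@[simp] theorem ptY_some {F : Type*} [Field F] {W : Affine F} (x y : F) (h : W.Nonsingular x y) :
    ptY (Affine.Point.some x y h) = y := rfl

end Fermat.Agent.S15P.M2
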