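import Mathlib

set_option autoImplicit false

namespace Fermat.Agent.S15P.M2.RootSums89

open Polynomial Finset

variable {k : Type*} [Field k]

/-- `uu ζ p j = 1 / (1 - ζ^(j+1))`. -/
noncomputable def uu (ζ : k) (p : ℕ) (j : Fin (p - 1)) : k := (1 - ζ ^ (j.1 + 1))⁻¹

theorem one_sub_ne_zero {ζ : k} {p : ℕ} (hζ : IsPrimitiveRoot ζ p) (j : Fin (p - 1)) :
    1 - ζ ^ (j.1 + 1) ≠ 0 := by
  intro h
  have h1 : ζ ^ (j.1 + 1) = 1 := (sub_eq_zero.mp h).symm
  have h2 := hζ.dvd_of_pow_eq_one _ h1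
  have hj := j.2
  have h3 := Nat.le_of_dvd (Nat.succ_pos _) h2
  omega

theorem uu_injective {ζ : k} {p : ℕ} (hζ : IsPrimitiveRoot ζ p) :
    Function.Injective (uu ζ p) := by
  intro j j' h
  unfold uu at h
  have h1 : ζ ^ (j.1 + 1) = ζ ^ (j'.1 + 1) := by
    have := inv_injective h
    linear_combination -this
  have hj := j.2
  have hj' := j'.2
  have := hζ.pow_inj (by omega) (by omega) h1
  exact Fin.ext (by omega)

/-- The polynomial `(X+1)^p - X^p`. -/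
noncomputable def GG (k : Type*) [Field k] (p : ℕ) : k[X] := (X + 1) ^ p - X ^ p

theorem GG_coeff (p j : ℕ) : (GG k p).coeff j = if j < p then (p.choose j : k) else 0 := by
  unfold GG
  rw [coeff_sub, coeff_X_add_one_pow, coeff_X_pow]
  by_cases h1 : j = p
  · subst h1; simp
  · by_cases h2 : j < p
    · simp [h1, h2]
    · rw [Nat.choose_eq_zero_of_lt (by omega)]; simp [h1, h2]

theorem GG_eval {ζ : k} {p : ℕ} (hζ : IsPrimitiveRoot ζ p) (j : Fin (p - 1)) :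
    (GG k p).eval (-(uu ζ p j)) = 0 := by
  have ha := one_sub_ne_zero hζ j
  have hz : (ζ ^ (j.1 + 1)) ^ p = 1 := by
    rw [← pow_mul, mul_comm, pow_mul, hζ.pow_eq_one, one_pow]
  have h1 : -(uu ζ p j) + 1 = ζ ^ (j.1 + 1) * (-(uu ζ p j)) := by
    unfold uu; field_simp; ring
  unfold GG
  simp only [eval_sub, eval_pow, eval_add, eval_X, eval_one]
  rw [h1, mul_pow, hz, one_mul, sub_self]


theorem GG_natDegree_le (p : ℕ) (hp : 0 < p) : (GG k p).natDegree ≤ p - 1 := by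
  rw [natDegree_le_iff_coeff_eq_zero]
  intro N hN
  rw [GG_coeff, if_neg (by omega)]

theorem GG_coeff_top (p : ℕ) (hp : 0 < p) : (GG k p).coeff (p - 1) = (p : k) := by
  rw [GG_coeff, if_pos (by omega)]
  obtain ⟨q, rfl⟩ : ∃ q, p = q + 1 := ⟨p - 1, by omega⟩
  rw [Nat.add_sub_cancel, Nat.choose_succ_self_right]

theorem GG_ne_zero (p : ℕ) (hp : 0 < p) (hpk : (p : k) ≠ 0) : GG k p ≠ 0 := by
  intro h
  have h1 := GG_coeff_top (k := k) p hp
  rw [h, coeff_zero] at h1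
  exact hpk h1.symm

theorem GG_natDegree (p : ℕ) (hp : 0 < p) (hpk : (p : k) ≠ 0) : (GG k p).natDegree = p - 1 :=
  le_antisymm (GG_natDegree_le p hp)
    (le_natDegree_of_ne_zero (by rw [GG_coeff_top p hp]; exact hpk))

theorem GG_leadingCoeff (p : ℕ) (hp : 0 < p) (hpk : (p : k) ≠ 0) :
    (GG k p).leadingCoeff = (p : k) := by
  rw [leadingCoeff, GG_natDegree p hp hpk, GG_coeff_top p hp]

theorem GG_roots {ζ : k} {p : ℕ} (hζ : IsPrimitiveRoot ζ p) (hp : 0 < p) (hpk : (p : k) ≠ 0) :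
    (GG k p).roots = (Finset.univ : Finset (Fin (p - 1))).val.map (fun j => -(uu ζ p j)) := by
  have hG := GG_ne_zero (k := k) p hp hpk
  symm
  apply Multiset.eq_of_le_of_card_le
  · rw [Multiset.le_iff_subset]
    · intro x hx
      rw [Multiset.mem_map] at hx
      obtain ⟨j, -, rfl⟩ := hx
      rw [mem_roots hG]
      exact GG_eval hζ j
    · exact Multiset.Nodup.map (fun a b hab => uu_injective hζ (neg_injective hab))
        Finset.univ.nodup
  · rw [Multiset.card_map]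
    have h1 : Multiset.card (Finset.univ : Finset (Fin (p - 1))).val = p - 1 := by simp
    rw [h1]
    exact (card_roots' _).trans (GG_natDegree_le p hp)

theorem GG_eq_prod {ζ : k} {p : ℕ} (hζ : IsPrimitiveRoot ζ p) (hp : 0 < p) (hpk : (p : k) ≠ 0) :
    C (p : k) * ((Finset.univ : Finset (Fin (p - 1))).val.map
      (fun j => X + C (uu ζ p j))).prod = GG k p := by
  have hcard : Multiset.card (GG k p).roots = (GG k p).natDegree := by
    rw [GG_roots hζ hp hpk, Multiset.card_map, GG_natDegree p hp hpk]; simp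
  have h := C_leadingCoeff_mul_prod_multiset_X_sub_C hcard
  rw [GG_leadingCoeff p hp hpk, GG_roots hζ hp hpk, Multiset.map_map] at h
  rw [← h]
  congr 2
  apply Multiset.map_congr rfl
  intro j _
  simp

/-- The elementary symmetric functions of the `uu j`. -/
theorem esymm_uu {ζ : k} {p : ℕ} (hζ : IsPrimitiveRoot ζ p) (hp : 0 < p) (hpk : (p : k) ≠ 0)
    (m : ℕ) :
    (p : k) * ((Finset.univ : Finset (Fin (p - 1))).val.map (uu ζ p)).esymm m
      = (p.choose (m + 1) : k) := by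
  have hcard : Multiset.card (Finset.univ : Finset (Fin (p - 1))).val = p - 1 := by simp
  by_cases hm : m ≤ p - 1
  · have h1 := Multiset.prod_X_add_C_coeff' (Finset.univ : Finset (Fin (p - 1))).val (uu ζ p)
      (k := p - 1 - m) (by rw [hcard]; omega)
    have h2 := congrArg (fun q => q.coeff (p - 1 - m)) (GG_eq_prod hζ hp hpk)
    simp only [coeff_C_mul] at h2
    rw [h1, GG_coeff, if_pos (by omega), hcard] at h2
    have h3 : p - 1 - (p - 1 - m) = m := by omega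
    rw [h3] at h2
    rw [h2]
    have h4 : p - 1 - m = p - (m + 1) := by omega
    rw [h4, Nat.choose_symm (by omega)]
  · have h0 : ((Finset.univ : Finset (Fin (p - 1))).val.map (uu ζ p)).esymm m = 0 := by
      rw [Multiset.esymm, Multiset.powersetCard_eq_empty _ (by rw [Multiset.card_map, hcard]; omega)]
      simp
    rw [h0, mul_zero, Nat.choose_eq_zero_of_lt (by omega)]; simp

section Newton

variable {σ : Type*} [Fintype σ] (u : σ → k)

theorem newton1 : ∑ i, u i ^ 1 = (univ.val.map u).esymm 1 := by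
  have h := congrArg (MvPolynomial.aeval u)
    (MvPolynomial.psum_eq_mul_esymm_sub_sum σ k 1 (by norm_num))
  rw [show ({a ∈ antidiagonal 1 | a.1 ∈ Set.Ioo 0 1} : Finset (ℕ × ℕ)) = ∅ from by decide] at h
  simp only [MvPolynomial.psum, map_sum, map_pow, MvPolynomial.aeval_X, map_sub, map_mul,
    MvPolynomial.aeval_esymm_eq_multiset_esymm, Finset.sum_empty, map_neg, map_one,
    map_natCast, map_zero] at h
  rw [h]; ring

theorem newton2 : ∑ i, u i ^ 2
    = (univ.val.map u).esymm 1 * ∑ i, u i ^ 1 - 2 * (univ.val.map u).esymm 2 := by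
  have h := congrArg (MvPolynomial.aeval u)
    (MvPolynomial.psum_eq_mul_esymm_sub_sum σ k 2 (by norm_num))
  rw [show ({a ∈ antidiagonal 2 | a.1 ∈ Set.Ioo 0 2} : Finset (ℕ × ℕ)) = {(1,1)} from by decide]
    at h
  simp only [MvPolynomial.psum, map_sum, map_pow, MvPolynomial.aeval_X, map_sub, map_mul,
    MvPolynomial.aeval_esymm_eq_multiset_esymm, Finset.sum_singleton, map_neg, map_one,
    map_natCast] at h
  rw [h]; ring

theorem newton3 : ∑ i, u i ^ 3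
    = (univ.val.map u).esymm 1 * ∑ i, u i ^ 2 - (univ.val.map u).esymm 2 * ∑ i, u i ^ 1
      + 3 * (univ.val.map u).esymm 3 := by
  have h := congrArg (MvPolynomial.aeval u)
    (MvPolynomial.psum_eq_mul_esymm_sub_sum σ k 3 (by norm_num))
  rw [show ({a ∈ antidiagonal 3 | a.1 ∈ Set.Ioo 0 3} : Finset (ℕ × ℕ)) = {(1,2), (2,1)}
    from by decide] at h
  rw [Finset.sum_pair (by decide)] at h
  simp only [MvPolynomial.psum, map_sum, map_pow, MvPolynomial.aeval_X, map_sub, map_mul,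
    MvPolynomial.aeval_esymm_eq_multiset_esymm, map_neg, map_one,
    map_natCast, map_add] at h
  rw [h]; ring

theorem newton4 : ∑ i, u i ^ 4
    = (univ.val.map u).esymm 1 * ∑ i, u i ^ 3 - (univ.val.map u).esymm 2 * ∑ i, u i ^ 2
      + (univ.val.map u).esymm 3 * ∑ i, u i ^ 1 - 4 * (univ.val.map u).esymm 4 := by
  have h := congrArg (MvPolynomial.aeval u)
    (MvPolynomial.psum_eq_mul_esymm_sub_sum σ k 4 (by norm_num))
  rw [show ({a ∈ antidiagonal 4 | a.1 ∈ Set.Ioo 0 4} : Finset (ℕ × ℕ)) = {(1,3), (2,2), (3,1)}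
    from by decide] at h
  rw [Finset.sum_insert (by decide), Finset.sum_pair (by decide)] at h
  simp only [MvPolynomial.psum, map_sum, map_pow, MvPolynomial.aeval_X, map_sub, map_mul,
    MvPolynomial.aeval_esymm_eq_multiset_esymm, map_neg, map_one,
    map_natCast, map_add] at h
  rw [h]; ring

end Newton


section Binomial

theorem two_mul_choose (p : ℕ) : (2 : ℤ) * (p.choose 2 : ℤ) = p * (p - 1) := by
  have h := descPochhammer_eval_eq_descFactorial ℤ p 2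
  rw [Nat.descFactorial_eq_factorial_mul_choose] at h
  push_cast at h
  simp [descPochhammer_succ_right, Nat.factorial] at h
  linarith

theorem six_mul_choose (p : ℕ) : (6 : ℤ) * (p.choose 3 : ℤ) = p * (p - 1) * (p - 2) := by
  have h := descPochhammer_eval_eq_descFactorial ℤ p 3
  rw [Nat.descFactorial_eq_factorial_mul_choose] at h
  push_cast at h
  simp [descPochhammer_succ_right, Nat.factorial] at h
  linarith

theorem c24_mul_choose (p : ℕ) :
    (24 : ℤ) * (p.choose 4 : ℤ) = p * (p - 1) * (p - 2) * (p - 3) := by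
  have h := descPochhammer_eval_eq_descFactorial ℤ p 4
  rw [Nat.descFactorial_eq_factorial_mul_choose] at h
  push_cast at h
  simp [descPochhammer_succ_right, Nat.factorial] at h
  linarith

theorem c120_mul_choose (p : ℕ) :
    (120 : ℤ) * (p.choose 5 : ℤ) = p * (p - 1) * (p - 2) * (p - 3) * (p - 4) := by
  have h := descPochhammer_eval_eq_descFactorial ℤ p 5
  rw [Nat.descFactorial_eq_factorial_mul_choose] at h
  push_cast at h
  simp [descPochhammer_succ_right, Nat.factorial] at h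
  linarith

theorem int_identity1 (p : ℕ) :
    (12 : ℤ) * ((p.choose 2 : ℤ) ^ 2 - 2 * p * (p.choose 3 : ℤ) - p * (p.choose 2 : ℤ))
      = -((p : ℤ) ^ 2 * ((p : ℤ) ^ 2 - 1)) := by
  have h2 : ((p.choose 2 : ℤ) : ℚ) = p * (p - 1) / 2 := by
    have := two_mul_choose p
    have h : ((2 : ℤ) : ℚ) * ((p.choose 2 : ℤ) : ℚ) = p * (p - 1) := by exact_mod_cast this
    push_cast at h ⊢; linarith
  have h3 : ((p.choose 3 : ℤ) : ℚ) = p * (p - 1) * (p - 2) / 6 := by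
    have := six_mul_choose p
    have h : ((6 : ℤ) : ℚ) * ((p.choose 3 : ℤ) : ℚ) = p * (p - 1) * (p - 2) := by
      exact_mod_cast this
    push_cast at h ⊢; linarith
  have key : (((12 : ℤ) * ((p.choose 2 : ℤ) ^ 2 - 2 * p * (p.choose 3 : ℤ)
      - p * (p.choose 2 : ℤ)) : ℤ) : ℚ) = ((-((p : ℤ) ^ 2 * ((p : ℤ) ^ 2 - 1)) : ℤ) : ℚ) := by
    push_cast at h2 h3 ⊢
    rw [h2, h3]; ring
  exact_mod_cast key

theorem int_identity2 (p : ℕ) :
    (720 : ℤ) * ((p.choose 2 : ℤ) ^ 4 - 4 * p * (p.choose 2 : ℤ) ^ 2 * (p.choose 3 : ℤ)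
        + 2 * (p : ℤ) ^ 2 * (p.choose 3 : ℤ) ^ 2 + 4 * (p : ℤ) ^ 2 * (p.choose 2 : ℤ) * (p.choose 4 : ℤ)
        - 4 * (p : ℤ) ^ 3 * (p.choose 5 : ℤ)
        - 2 * p * ((p.choose 2 : ℤ) ^ 3 - 3 * p * (p.choose 2 : ℤ) * (p.choose 3 : ℤ)
            + 3 * (p : ℤ) ^ 2 * (p.choose 4 : ℤ))
        + (p : ℤ) ^ 2 * ((p.choose 2 : ℤ) ^ 2 - 2 * p * (p.choose 3 : ℤ)))
      = (p : ℤ) ^ 4 * ((p : ℤ) ^ 2 - 1) * ((p : ℤ) ^ 2 + 11) := by
  have h2 : ((p.choose 2 : ℤ) : ℚ) = p * (p - 1) / 2 := by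
    have := two_mul_choose p
    have h : ((2 : ℤ) : ℚ) * ((p.choose 2 : ℤ) : ℚ) = p * (p - 1) := by exact_mod_cast this
    push_cast at h ⊢; linarith
  have h3 : ((p.choose 3 : ℤ) : ℚ) = p * (p - 1) * (p - 2) / 6 := by
    have := six_mul_choose p
    have h : ((6 : ℤ) : ℚ) * ((p.choose 3 : ℤ) : ℚ) = p * (p - 1) * (p - 2) := by
      exact_mod_cast this
    push_cast at h ⊢; linarith
  have h4 : ((p.choose 4 : ℤ) : ℚ) = p * (p - 1) * (p - 2) * (p - 3) / 24 := by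
    have := c24_mul_choose p
    have h : ((24 : ℤ) : ℚ) * ((p.choose 4 : ℤ) : ℚ) = p * (p - 1) * (p - 2) * (p - 3) := by
      exact_mod_cast this
    push_cast at h ⊢; linarith
  have h5 : ((p.choose 5 : ℤ) : ℚ) = p * (p - 1) * (p - 2) * (p - 3) * (p - 4) / 120 := by
    have := c120_mul_choose p
    have h : ((120 : ℤ) : ℚ) * ((p.choose 5 : ℤ) : ℚ)
        = p * (p - 1) * (p - 2) * (p - 3) * (p - 4) := by
      exact_mod_cast this
    push_cast at h ⊢; linarith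
  have key : (((720 : ℤ) * ((p.choose 2 : ℤ) ^ 4 - 4 * p * (p.choose 2 : ℤ) ^ 2 * (p.choose 3 : ℤ)
        + 2 * (p : ℤ) ^ 2 * (p.choose 3 : ℤ) ^ 2 + 4 * (p : ℤ) ^ 2 * (p.choose 2 : ℤ) * (p.choose 4 : ℤ)
        - 4 * (p : ℤ) ^ 3 * (p.choose 5 : ℤ)
        - 2 * p * ((p.choose 2 : ℤ) ^ 3 - 3 * p * (p.choose 2 : ℤ) * (p.choose 3 : ℤ)
            + 3 * (p : ℤ) ^ 2 * (p.choose 4 : ℤ))
        + (p : ℤ) ^ 2 * ((p.choose 2 : ℤ) ^ 2 - 2 * p * (p.choose 3 : ℤ))) : ℤ) : ℚ)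
      = (((p : ℤ) ^ 4 * ((p : ℤ) ^ 2 - 1) * ((p : ℤ) ^ 2 + 11) : ℤ) : ℚ) := by
    push_cast at h2 h3 h4 h5 ⊢
    rw [h2, h3, h4, h5]; ring
  exact_mod_cast key

end Binomial


section Main

variable {ζ : k} {p : ℕ}

theorem sum_Ico_eq (f : k → k) :
    ∑ i ∈ Finset.Ico 1 p, f (ζ ^ i) = ∑ j : Fin (p - 1), f (ζ ^ (j.1 + 1)) := by
  rw [Finset.sum_Ico_eq_sum_range, Finset.sum_range]
  apply Finset.sum_congr rfl
  intro j _
  rw [add_comm]

/-- `Σ_{i=1}^{p-1} ζ^i/(1-ζ^i)^2 = -(p^2-1)/12`, division-free. -/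
theorem sum_root_one (hζ : IsPrimitiveRoot ζ p) (hp : 0 < p) (hpk : (p : k) ≠ 0) :
    12 * ∑ i ∈ Finset.Ico 1 p, ζ ^ i / (1 - ζ ^ i) ^ 2 = -((p : k) ^ 2 - 1) := by
  have hterm : ∑ i ∈ Finset.Ico 1 p, ζ ^ i / (1 - ζ ^ i) ^ 2
      = ∑ j : Fin (p - 1), uu ζ p j ^ 2 - ∑ j : Fin (p - 1), uu ζ p j ^ 1 := by
    rw [sum_Ico_eq (fun z => z / (1 - z) ^ 2), ← Finset.sum_sub_distrib]
    apply Finset.sum_congr rfl
    intro j _
    have ha := one_sub_ne_zero hζ j
    unfold uu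
    field_simp
    ring
  have hE1 := esymm_uu hζ hp hpk 1
  have hE2 := esymm_uu hζ hp hpk 2
  have hI : (12 : k) * ((p.choose 2 : k) ^ 2 - 2 * p * (p.choose 3 : k) - p * (p.choose 2 : k))
      = -((p : k) ^ 2 * ((p : k) ^ 2 - 1)) := by
    have := congrArg (Int.cast : ℤ → k) (int_identity1 p)
    push_cast at this
    exact this
  rw [← hE1, ← hE2] at hI
  rw [hterm, newton2, newton1]
  have hp2 : (p : k) ^ 2 ≠ 0 := pow_ne_zero 2 hpk
  apply mul_left_cancel₀ hp2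
  linear_combination hI

/-- `Σ_{i=1}^{p-1} ζ^{2i}/(1-ζ^i)^4 = (p^2-1)(p^2+11)/720`, division-free. -/
theorem sum_root_two (hζ : IsPrimitiveRoot ζ p) (hp : 0 < p) (hpk : (p : k) ≠ 0) :
    720 * ∑ i ∈ Finset.Ico 1 p, (ζ ^ i) ^ 2 / (1 - ζ ^ i) ^ 4
      = ((p : k) ^ 2 - 1) * ((p : k) ^ 2 + 11) := by
  have hterm : ∑ i ∈ Finset.Ico 1 p, (ζ ^ i) ^ 2 / (1 - ζ ^ i) ^ 4
      = ∑ j : Fin (p - 1), uu ζ p j ^ 4 - 2 * ∑ j : Fin (p - 1), uu ζ p j ^ 3
        + ∑ j : Fin (p - 1), uu ζ p j ^ 2 := by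
    rw [sum_Ico_eq (fun z => z ^ 2 / (1 - z) ^ 4), Finset.mul_sum, ← Finset.sum_sub_distrib,
      ← Finset.sum_add_distrib]
    apply Finset.sum_congr rfl
    intro j _
    have ha := one_sub_ne_zero hζ j
    unfold uu
    field_simp
    ring
  have hE1 := esymm_uu hζ hp hpk 1
  have hE2 := esymm_uu hζ hp hpk 2
  have hE3 := esymm_uu hζ hp hpk 3
  have hE4 := esymm_uu hζ hp hpk 4
  have hI := congrArg (Int.cast : ℤ → k) (int_identity2 p)
  push_cast at hI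
  rw [← hE1, ← hE2, ← hE3, ← hE4] at hI
  rw [hterm, newton4, newton3, newton2, newton1]
  have hp4 : (p : k) ^ 4 ≠ 0 := pow_ne_zero 4 hpk
  apply mul_left_cancel₀ hp4
  linear_combination hI

/-- The combination that appears in Vélu's `c₄`: `Σ (6 ζ^{2i}/(1-ζ^i)^4 + ζ^i/(1-ζ^i)^2) = (p^4-1)/120`. -/
theorem sum_root_velu (hζ : IsPrimitiveRoot ζ p) (hp : 0 < p) (hpk : (p : k) ≠ 0) :
    120 * ∑ i ∈ Finset.Ico 1 p, (6 * (ζ ^ i) ^ 2 / (1 - ζ ^ i) ^ 4 + ζ ^ i / (1 - ζ ^ i) ^ 2)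
      = (p : k) ^ 4 - 1 := by
  have h1 := sum_root_one hζ hp hpk
  have h2 := sum_root_two hζ hp hpk
  have hsplit : ∑ i ∈ Finset.Ico 1 p, (6 * (ζ ^ i) ^ 2 / (1 - ζ ^ i) ^ 4 + ζ ^ i / (1 - ζ ^ i) ^ 2)
      = 6 * ∑ i ∈ Finset.Ico 1 p, (ζ ^ i) ^ 2 / (1 - ζ ^ i) ^ 4
        + ∑ i ∈ Finset.Ico 1 p, ζ ^ i / (1 - ζ ^ i) ^ 2 := by
    rw [Finset.mul_sum, ← Finset.sum_add_distrib]
    apply Finset.sum_congr rfl
    intro i _
    ring
  rw [hsplit]
  linear_combination h2 + 10 * h1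

end Main

end Fermat.Agent.S15P.M2.RootSums89
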