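/-
S15 cell, brick (M2) (helper89): the nonsingular points of a nodal Weierstrass cubic form the
multiplicative group, in every characteristic, for Mathlib's chord-tangent group law.

`nodal x₀ y₀ α β` is the cubic `(Y - αX)(Y - βX) = X³`, `X = x - x₀`, `Y = y - y₀` (node at
`(x₀, y₀)`, tangent slopes `α ≠ β`).  With `δ = α - β` the map

  `u ↦ (x₀ + δ²u/(1-u)², y₀ + αδ²u/(1-u)² + δ³u²/(1-u)³)`,  `1 ↦ 0`

is an injective and surjective homomorphism `kˣ → (nodal x₀ y₀ α β).Point` (`toPt_mul`,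
`toPt_injective`, `toPt_surjective`).

Consequence (`veluC4_nodal`): for a point `P` of prime order `p`, `(p : k) ≠ 0`,
`c₄ + 120 ∑_{0<j<p} (6x_j² + b₂x_j + b₄) = p⁴ c₄`, `x_j = x(j • P)`.
-/
import Mathlib
import Fermat.Agent.S15P.M2.Defs89
import Fermat.Agent.S15P.M2.RootSums89

set_option autoImplicit false

namespace Fermat.Agent.S15P.M2.NodalGm89

open WeierstrassCurve WeierstrassCurve.Affine

variable {k : Type*} [Field k]

/-- The Weierstrass cubic `(Y - αX)(Y - βX) = X³`, `X = x - x₀`, `Y = y - y₀`. -/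
def nodal (x₀ y₀ α β : k) : Affine k where
  a₁ := -(α + β)
  a₂ := -(α * β) - 3 * x₀
  a₃ := -2 * y₀ + (α + β) * x₀
  a₄ := 3 * x₀ ^ 2 + 2 * α * β * x₀ - (α + β) * y₀
  a₆ := -x₀ ^ 3 - α * β * x₀ ^ 2 + (α + β) * x₀ * y₀ - y₀ ^ 2

/-- `u / (1 - u)²`. -/
def vA (u : k) : k := u / (1 - u) ^ 2

/-- `u² / (1 - u)³`. -/
def vB (u : k) : k := u ^ 2 / (1 - u) ^ 3

/-- The `x`-coordinate of the point with parameter `u`. -/
def nX (x₀ α β u : k) : k := x₀ + (α - β) ^ 2 * vA u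

/-- The `y`-coordinate of the point with parameter `u`. -/
def nY (_x₀ y₀ α β u : k) : k := y₀ + α * ((α - β) ^ 2 * vA u) + (α - β) ^ 3 * vB u

/-- The closed form of the slope of the chord (or tangent) through the points `u`, `v`. -/
def lam (α β u v : k) : k :=
  α + (α - β) * (u + v - 3 * u * v + u ^ 2 * v ^ 2) / ((1 - u) * (1 - v) * (1 - u * v))

section Identities

variable (x₀ y₀ α β : k)

theorem c₄_nodal : (nodal x₀ y₀ α β).c₄ = (α - β) ^ 4 := by
  simp only [WeierstrassCurve.c₄, WeierstrassCurve.b₂, WeierstrassCurve.b₄, nodal]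
  ring

theorem tq_nodal (u : k) :
    6 * nX x₀ α β u ^ 2 + (nodal x₀ y₀ α β).b₂ * nX x₀ α β u + (nodal x₀ y₀ α β).b₄ =
      (α - β) ^ 4 * (6 * vA u ^ 2 + vA u) := by
  simp only [WeierstrassCurve.b₂, WeierstrassCurve.b₄, nodal, nX]
  ring

theorem equation_n {u : k} (hu : u ≠ 1) :
    (nodal x₀ y₀ α β).Equation (nX x₀ α β u) (nY x₀ y₀ α β u) := by
  have h1 : 1 - u ≠ 0 := sub_ne_zero.mpr (Ne.symm hu)
  rw [equation_iff]
  simp only [nodal, nX, nY, vA, vB]
  field_simp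
  ring

theorem psi_n {u : k} (hu : u ≠ 1) :
    2 * nY x₀ y₀ α β u + (nodal x₀ y₀ α β).a₁ * nX x₀ α β u + (nodal x₀ y₀ α β).a₃ =
      (α - β) ^ 3 * u * (1 + u) / (1 - u) ^ 3 := by
  have h1 : 1 - u ≠ 0 := sub_ne_zero.mpr (Ne.symm hu)
  simp only [nodal, nX, nY, vA, vB]
  field_simp
  ring

theorem fx_n {u : k} (hu : u ≠ 1) :
    (nodal x₀ y₀ α β).a₁ * nY x₀ y₀ α β u -
        (3 * nX x₀ α β u ^ 2 + 2 * (nodal x₀ y₀ α β).a₂ * nX x₀ α β u + (nodal x₀ y₀ α β).a₄) =
      -(α - β) ^ 3 * u * (α * (1 + u) * (1 - u) + (α - β) * u * (2 + u)) / (1 - u) ^ 4 := by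
  have h1 : 1 - u ≠ 0 := sub_ne_zero.mpr (Ne.symm hu)
  simp only [nodal, nX, nY, vA, vB]
  field_simp
  ring

theorem nonsingular_n (hαβ : α ≠ β) {u : k} (hu0 : u ≠ 0) (hu : u ≠ 1) :
    (nodal x₀ y₀ α β).Nonsingular (nX x₀ α β u) (nY x₀ y₀ α β u) := by
  have h1 : 1 - u ≠ 0 := sub_ne_zero.mpr (Ne.symm hu)
  have hδ : α - β ≠ 0 := sub_ne_zero.mpr hαβ
  rw [nonsingular_iff]
  refine ⟨equation_n x₀ y₀ α β hu, ?_⟩
  by_cases hu1 : 1 + u = 0
  · left
    intro h
    have h' := fx_n x₀ y₀ α β hu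
    rw [h, sub_self] at h'
    have hnum : (α - β) ^ 3 * u * (α * (1 + u) * (1 - u) + (α - β) * u * (2 + u)) = 0 := by
      have h'' := h'.symm
      rw [div_eq_zero_iff] at h''
      rcases h'' with h'' | h''
      · linear_combination -h''
      · exact absurd h'' (pow_ne_zero 4 h1)
    have h2u : 2 + u = 1 := by linear_combination hu1
    rw [hu1, h2u] at hnum
    have : (α - β) ^ 4 * u ^ 2 = 0 := by linear_combination hnum
    rcases mul_eq_zero.mp this with h3 | h3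
    · exact hδ (pow_eq_zero_iff (by norm_num) |>.mp h3)
    · exact hu0 (pow_eq_zero_iff (by norm_num) |>.mp h3)
  · right
    intro h
    have h' := psi_n x₀ y₀ α β hu
    have h0 : (α - β) ^ 3 * u * (1 + u) / (1 - u) ^ 3 = 0 := by
      rw [← h']
      linear_combination h
    rw [div_eq_zero_iff] at h0
    rcases h0 with h0 | h0
    · rcases mul_eq_zero.mp h0 with h3 | h3
      · rcases mul_eq_zero.mp h3 with h4 | h4
        · exact hδ (pow_eq_zero_iff (by norm_num) |>.mp h4)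
        · exact hu0 h4
      · exact hu1 h3
    · exact absurd h0 (pow_ne_zero 3 h1)

/-- The node itself is a singular point. -/
theorem not_nonsingular_node : ¬ (nodal x₀ y₀ α β).Nonsingular x₀ y₀ := by
  rw [nonsingular_iff]
  rintro ⟨-, h | h⟩
  · apply h
    simp only [nodal]
    ring
  · apply h
    simp only [nodal]
    ring

theorem vA_inv {u v : k} (huv : u * v = 1) (hu : u ≠ 1) (hv : v ≠ 1) : vA v = vA u := by
  have h1u : 1 - u ≠ 0 := sub_ne_zero.mpr (Ne.symm hu)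
  have h1v : 1 - v ≠ 0 := sub_ne_zero.mpr (Ne.symm hv)
  unfold vA
  rw [div_eq_div_iff (pow_ne_zero 2 h1v) (pow_ne_zero 2 h1u)]
  linear_combination (u - v) * huv

theorem vB_inv {u v : k} (huv : u * v = 1) (hu : u ≠ 1) (hv : v ≠ 1) :
    vB v = -(u / (1 - u) ^ 3) := by
  have h1u : 1 - u ≠ 0 := sub_ne_zero.mpr (Ne.symm hu)
  have h1v : 1 - v ≠ 0 := sub_ne_zero.mpr (Ne.symm hv)
  unfold vB
  rw [← neg_div, div_eq_div_iff (pow_ne_zero 3 h1v) (pow_ne_zero 3 h1u)]
  linear_combination (-(v ^ 2 - 3 * u * v + u * (1 + u * v))) * huv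

theorem nX_inv {u v : k} (huv : u * v = 1) (hu : u ≠ 1) (hv : v ≠ 1) :
    nX x₀ α β u = nX x₀ α β v := by
  unfold nX
  rw [vA_inv huv hu hv]

theorem negY_n {u v : k} (huv : u * v = 1) (hu : u ≠ 1) (hv : v ≠ 1) :
    nY x₀ y₀ α β u = (nodal x₀ y₀ α β).negY (nX x₀ α β v) (nY x₀ y₀ α β v) := by
  have h1u : 1 - u ≠ 0 := sub_ne_zero.mpr (Ne.symm hu)
  have h1v : 1 - v ≠ 0 := sub_ne_zero.mpr (Ne.symm hv)
  have e : (nodal x₀ y₀ α β).negY (nX x₀ α β v) (nY x₀ y₀ α β v) =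
      y₀ + β * ((α - β) ^ 2 * vA u) + (α - β) ^ 3 * (u / (1 - u) ^ 3)  := by
    simp only [negY, nX, nY]
    rw [vA_inv huv hu hv, vB_inv huv hu hv]
    simp only [nodal]
    ring
  rw [e]
  simp only [nY, vA, vB]
  field_simp
  ring

theorem n_inj (hαβ : α ≠ β) {u v : k} (hu : u ≠ 1) (hv0 : v ≠ 0) (hv : v ≠ 1)
    (hX : nX x₀ α β u = nX x₀ α β v) (hY : nY x₀ y₀ α β u = nY x₀ y₀ α β v) : u = v := by
  have h1u : 1 - u ≠ 0 := sub_ne_zero.mpr (Ne.symm hu)
  have h1v : 1 - v ≠ 0 := sub_ne_zero.mpr (Ne.symm hv)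
  have hδ : α - β ≠ 0 := sub_ne_zero.mpr hαβ
  have hA' : vA u = vA v := by
    unfold nX at hX
    exact mul_left_cancel₀ (pow_ne_zero 2 hδ) (add_left_cancel hX)
  have hB' : vB u = vB v := by
    unfold nY at hY
    rw [hA'] at hY
    exact mul_left_cancel₀ (pow_ne_zero 3 hδ) (add_left_cancel hY)
  have hA : u * (1 - v) ^ 2 = v * (1 - u) ^ 2 := by
    unfold vA at hA'
    rwa [div_eq_div_iff (pow_ne_zero 2 h1u) (pow_ne_zero 2 h1v)] at hA'
  have hB : u ^ 2 * (1 - v) ^ 3 = v ^ 2 * (1 - u) ^ 3 := by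
    unfold vB at hB'
    rwa [div_eq_div_iff (pow_ne_zero 3 h1u) (pow_ne_zero 3 h1v)] at hB'
  have hC : v * (1 - u) ^ 2 * (u * (1 - v) - v * (1 - u)) = 0 := by
    linear_combination hB - u * (1 - v) * hA
  rcases mul_eq_zero.mp hC with h | h
  · rcases mul_eq_zero.mp h with h | h
    · exact absurd h hv0
    · exact absurd (pow_eq_zero_iff (by norm_num) |>.mp h) h1u
  · linear_combination h

theorem nX_sub {u v : k} (hu : u ≠ 1) (hv : v ≠ 1) :
    nX x₀ α β u - nX x₀ α β v =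
      (α - β) ^ 2 * (u - v) * (1 - u * v) / ((1 - u) ^ 2 * (1 - v) ^ 2) := by
  have h1u : 1 - u ≠ 0 := sub_ne_zero.mpr (Ne.symm hu)
  have h1v : 1 - v ≠ 0 := sub_ne_zero.mpr (Ne.symm hv)
  simp only [nX, vA]
  field_simp
  ring

theorem addX_n {u v : k} (hu : u ≠ 1) (hv : v ≠ 1) (huv : u * v ≠ 1) :
    (nodal x₀ y₀ α β).addX (nX x₀ α β u) (nX x₀ α β v) (lam α β u v) = nX x₀ α β (u * v) := by
  have h1u : 1 - u ≠ 0 := sub_ne_zero.mpr (Ne.symm hu)
  have h1v : 1 - v ≠ 0 := sub_ne_zero.mpr (Ne.symm hv)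
  have h1uv : 1 - u * v ≠ 0 := sub_ne_zero.mpr (Ne.symm huv)
  simp only [addX, nodal, nX, vA, lam]
  field_simp
  ring

theorem addY_n {u v : k} (hu : u ≠ 1) (hv : v ≠ 1) (huv : u * v ≠ 1) :
    (nodal x₀ y₀ α β).addY (nX x₀ α β u) (nX x₀ α β v) (nY x₀ y₀ α β u) (lam α β u v) =
      nY x₀ y₀ α β (u * v) := by
  have h1u : 1 - u ≠ 0 := sub_ne_zero.mpr (Ne.symm hu)
  have h1v : 1 - v ≠ 0 := sub_ne_zero.mpr (Ne.symm hv)
  have h1uv : 1 - u * v ≠ 0 := sub_ne_zero.mpr (Ne.symm huv)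
  simp only [addY, negAddY, negY, addX, nodal, nX, nY, vA, vB, lam]
  field_simp
  ring

end Identities

section Group

variable [DecidableEq k] {x₀ y₀ α β : k}

theorem slope_n (hαβ : α ≠ β) {u v : k} (hu0 : u ≠ 0) (hu : u ≠ 1) (hv : v ≠ 1)
    (huv : u * v ≠ 1) :
    (nodal x₀ y₀ α β).slope (nX x₀ α β u) (nX x₀ α β v) (nY x₀ y₀ α β u) (nY x₀ y₀ α β v) =
      lam α β u v := by
  have h1u : 1 - u ≠ 0 := sub_ne_zero.mpr (Ne.symm hu)
  have h1v : 1 - v ≠ 0 := sub_ne_zero.mpr (Ne.symm hv)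
  have h1uv : 1 - u * v ≠ 0 := sub_ne_zero.mpr (Ne.symm huv)
  have hδ : α - β ≠ 0 := sub_ne_zero.mpr hαβ
  by_cases h : u = v
  · subst h
    have h1pu : 1 + u ≠ 0 := by
      intro h0
      apply h1uv
      linear_combination (1 - u) * h0
    have h1uu : 1 - u ^ 2 ≠ 0 := by
      intro h0
      apply h1uv
      linear_combination h0
    have hψ := psi_n x₀ y₀ α β hu
    have e : nY x₀ y₀ α β u - (nodal x₀ y₀ α β).negY (nX x₀ α β u) (nY x₀ y₀ α β u) =
        (α - β) ^ 3 * u * (1 + u) / (1 - u) ^ 3 := by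
      rw [← hψ]
      simp only [negY]
      ring
    have hne : nY x₀ y₀ α β u - (nodal x₀ y₀ α β).negY (nX x₀ α β u) (nY x₀ y₀ α β u) ≠ 0 := by
      rw [e]
      exact div_ne_zero (mul_ne_zero (mul_ne_zero (pow_ne_zero 3 hδ) hu0) h1pu)
        (pow_ne_zero 3 h1u)
    rw [slope_of_Y_ne rfl (sub_ne_zero.mp hne), div_eq_iff hne, e]
    simp only [nodal, nX, nY, vA, vB, lam]
    field_simp
    ring
  · have e := nX_sub x₀ α β hu hv
    have hX : nX x₀ α β u - nX x₀ α β v ≠ 0 := by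
      rw [e]
      exact div_ne_zero (mul_ne_zero (mul_ne_zero (pow_ne_zero 2 hδ) (sub_ne_zero.mpr h)) h1uv)
        (mul_ne_zero (pow_ne_zero 2 h1u) (pow_ne_zero 2 h1v))
    rw [slope_of_X_ne (sub_ne_zero.mp hX), div_eq_iff hX, e]
    simp only [nY, vA, vB, lam]
    field_simp
    ring

/-- The parametrisation `kˣ → (nodal x₀ y₀ α β).Point`. -/
noncomputable def toPt (x₀ y₀ : k) (hαβ : α ≠ β) (u : kˣ) : (nodal x₀ y₀ α β).Point :=
  if h : (u : k) = 1 then 0
  else Point.some (nX x₀ α β u) (nY x₀ y₀ α β u) (nonsingular_n x₀ y₀ α β hαβ u.ne_zero h)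

theorem toPt_of_eq (hαβ : α ≠ β) {u : kˣ} (h : (u : k) = 1) : toPt x₀ y₀ hαβ u = 0 :=
  dif_pos h

theorem toPt_of_ne (hαβ : α ≠ β) {u : kˣ} (h : (u : k) ≠ 1) :
    toPt x₀ y₀ hαβ u =
      Point.some (nX x₀ α β u) (nY x₀ y₀ α β u) (nonsingular_n x₀ y₀ α β hαβ u.ne_zero h) :=
  dif_neg h

theorem toPt_one (hαβ : α ≠ β) : toPt x₀ y₀ hαβ 1 = 0 := toPt_of_eq hαβ Units.val_one

theorem toPt_mul (hαβ : α ≠ β) (u v : kˣ) :
    toPt x₀ y₀ hαβ (u * v) = toPt x₀ y₀ hαβ u + toPt x₀ y₀ hαβ v := by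
  by_cases hu : (u : k) = 1
  · have hu1 : u = 1 := Units.ext hu
    subst hu1
    rw [toPt_one, one_mul, zero_add]
  by_cases hv : (v : k) = 1
  · have hv1 : v = 1 := Units.ext hv
    subst hv1
    rw [toPt_one, mul_one, add_zero]
  rw [toPt_of_ne hαβ hu, toPt_of_ne hαβ hv]
  by_cases huv : ((u * v : kˣ) : k) = 1
  · rw [toPt_of_eq hαβ huv]
    rw [Units.val_mul] at huv
    exact (Point.add_of_Y_eq (nX_inv x₀ α β huv hu hv) (negY_n x₀ y₀ α β huv hu hv)).symm
  · rw [toPt_of_ne hαβ huv]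
    have huv' : (u : k) * (v : k) ≠ 1 := by rwa [Units.val_mul] at huv
    have hxy : ¬(nX x₀ α β u = nX x₀ α β v ∧
        nY x₀ y₀ α β u = (nodal x₀ y₀ α β).negY (nX x₀ α β v) (nY x₀ y₀ α β v)) := by
      rintro ⟨h1, h2⟩
      have hvi : ((v⁻¹ : kˣ) : k) * (v : k) = 1 := by
        rw [← Units.val_mul, inv_mul_cancel, Units.val_one]
      have hvi1 : ((v⁻¹ : kˣ) : k) ≠ 1 := by
        intro h
        apply hv
        rw [h, one_mul] at hvi
        exact hvi
      have e1 := nX_inv x₀ α β hvi hvi1 hv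
      have e2 := negY_n x₀ y₀ α β hvi hvi1 hv
      have huvi := n_inj x₀ y₀ α β hαβ hu (v⁻¹).ne_zero hvi1 (h1.trans e1.symm) (h2.trans e2.symm)
      apply huv'
      rw [huvi]
      exact hvi
    rw [Point.add_some hxy, Point.some.injEq, slope_n hαβ u.ne_zero hu hv huv', Units.val_mul]
    exact ⟨(addX_n x₀ y₀ α β hu hv huv').symm, (addY_n x₀ y₀ α β hu hv huv').symm⟩

theorem toPt_pow (hαβ : α ≠ β) (u : kˣ) (j : ℕ) :
    toPt x₀ y₀ hαβ (u ^ j) = j • toPt x₀ y₀ hαβ u := by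
  induction j with
  | zero => rw [pow_zero, toPt_one, zero_nsmul]
  | succ n ih => rw [pow_succ, toPt_mul, ih, succ_nsmul]

theorem toPt_injective (hαβ : α ≠ β) : Function.Injective (toPt x₀ y₀ hαβ) := by
  intro u v h
  by_cases hu : (u : k) = 1
  · by_cases hv : (v : k) = 1
    · exact Units.ext (hu.trans hv.symm)
    · rw [toPt_of_eq hαβ hu, toPt_of_ne hαβ hv] at h
      exact absurd h.symm (Point.some_ne_zero _)
  · by_cases hv : (v : k) = 1
    · rw [toPt_of_ne hαβ hu, toPt_of_eq hαβ hv] at h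
      exact absurd h (Point.some_ne_zero _)
    · rw [toPt_of_ne hαβ hu, toPt_of_ne hαβ hv, Point.some.injEq] at h
      exact Units.ext (n_inj x₀ y₀ α β hαβ hu v.ne_zero hv h.1 h.2)

theorem toPt_surjective (hαβ : α ≠ β) : Function.Surjective (toPt x₀ y₀ hαβ) := by
  have hδ : α - β ≠ 0 := sub_ne_zero.mpr hαβ
  rintro (_ | ⟨x, y, h⟩)
  · exact ⟨1, toPt_one hαβ⟩
  · have he := h.1
    rw [equation_iff] at he
    simp only [nodal] at he
    have hss : (y - y₀ - α * (x - x₀)) * (y - y₀ - β * (x - x₀)) = (x - x₀) ^ 3 := by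
      linear_combination he
    have hX : x - x₀ ≠ 0 := by
      intro hX0
      have hx : x = x₀ := sub_eq_zero.mp hX0
      subst hx
      have hy : y = y₀ := by
        have h2 : (y - y₀) ^ 2 = 0 := by linear_combination hss
        exact sub_eq_zero.mp (pow_eq_zero_iff (by norm_num) |>.mp h2)
      subst hy
      exact not_nonsingular_node x y α β h
    have hs : y - y₀ - α * (x - x₀) ≠ 0 := by
      intro h0
      rw [h0, zero_mul] at hss
      exact hX (pow_eq_zero_iff (by norm_num) |>.mp hss.symm)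
    have hs' : y - y₀ - β * (x - x₀) ≠ 0 := by
      intro h0
      rw [h0, mul_zero] at hss
      exact hX (pow_eq_zero_iff (by norm_num) |>.mp hss.symm)
    have hdiff : (y - y₀ - β * (x - x₀)) - (y - y₀ - α * (x - x₀)) = (α - β) * (x - x₀) := by
      ring
    generalize hsdef : y - y₀ - α * (x - x₀) = s at hss hs hdiff
    generalize hs'def : y - y₀ - β * (x - x₀) = s' at hss hs' hdiff
    have hne1 : s / s' ≠ 1 := by
      intro h1
      have hse : s = s' := by rwa [div_eq_one_iff_eq hs'] at h1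
      apply mul_ne_zero hδ hX
      rw [← hdiff, hse, sub_self]
    have e1 : 1 - s / s' = (α - β) * (x - x₀) / s' := by
      rw [← hdiff]
      field_simp
    have eA : vA (s / s') = (x - x₀) / (α - β) ^ 2 := by
      unfold vA
      rw [e1]
      field_simp
      linear_combination hss
    have eB : vB (s / s') = s / (α - β) ^ 3 := by
      unfold vB
      rw [e1]
      field_simp
      linear_combination hss
    refine ⟨Units.mk0 (s / s') (div_ne_zero hs hs'), ?_⟩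
    have hne1' : ((Units.mk0 (s / s') (div_ne_zero hs hs') : kˣ) : k) ≠ 1 := by
      rwa [Units.val_mk0]
    rw [toPt_of_ne hαβ hne1', Point.some.injEq, Units.val_mk0]
    have e3 : (α - β) ^ 2 * ((x - x₀) / (α - β) ^ 2) = x - x₀ := by
      field_simp
    have e4 : (α - β) ^ 3 * (s / (α - β) ^ 3) = s := by
      field_simp
    constructor
    · unfold nX
      rw [eA, e3]
      ring
    · unfold nY
      rw [eA, eB, e3, e4, ← hsdef]
      ring

end Group

section Order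

variable [DecidableEq k] {x₀ y₀ α β : k}

/-- The parametrisation as a monoid homomorphism. -/
noncomputable def toHom (x₀ y₀ : k) (hαβ : α ≠ β) :
    kˣ →* Multiplicative (nodal x₀ y₀ α β).Point where
  toFun u := Multiplicative.ofAdd (toPt x₀ y₀ hαβ u)
  map_one' := by
    rw [toPt_one]
    rfl
  map_mul' u v := by
    rw [toPt_mul]
    rfl

theorem toHom_injective (hαβ : α ≠ β) : Function.Injective (toHom x₀ y₀ hαβ) := by
  intro u v h
  exact toPt_injective hαβ (Multiplicative.ofAdd.injective h)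

/-- A point of order `p` is the image of a primitive `p`-th root of unity, and its multiples are
the images of the powers. -/
theorem exists_root (hαβ : α ≠ β) (P : (nodal x₀ y₀ α β).Point) {p : ℕ}
    (hP : addOrderOf P = p) :
    ∃ ζ : k, IsPrimitiveRoot ζ p ∧ ∀ j ∈ Finset.Ico 1 p,
      ptX (j • P) = nX x₀ α β (ζ ^ j) ∧ ptY (j • P) = nY x₀ y₀ α β (ζ ^ j) := by
  obtain ⟨u, rfl⟩ := toPt_surjective hαβ P
  have hord : orderOf u = p := by
    rw [← hP, ← orderOf_injective (toHom x₀ y₀ hαβ) (toHom_injective hαβ) u]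
    exact orderOf_ofAdd_eq_addOrderOf _
  refine ⟨(u : k), ?_, ?_⟩
  · rw [IsPrimitiveRoot.coe_units_iff, ← hord]
    exact IsPrimitiveRoot.orderOf u
  · intro j hj
    rw [Finset.mem_Ico] at hj
    rw [← toPt_pow]
    have hne : ((u ^ j : kˣ) : k) ≠ 1 := by
      intro h
      have h1 : u ^ j = 1 := Units.ext h
      have hdvd := orderOf_dvd_of_pow_eq_one h1
      rw [hord] at hdvd
      have := Nat.le_of_dvd (by omega) hdvd
      omega
    rw [toPt_of_ne hαβ hne]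
    simp only [ptX_some, ptY_some, Units.val_pow_eq_pow_val]
    exact ⟨trivial, trivial⟩

/-- **The `c₄` of the quotient of a nodal cubic by a subgroup of order `p`** is `p⁴ c₄`. -/
theorem veluC4_nodal (hαβ : α ≠ β) (P : (nodal x₀ y₀ α β).Point) {p : ℕ} (hp : 0 < p)
    (hP : addOrderOf P = p) (hpk : (p : k) ≠ 0) :
    veluC4 p P = (p : k) ^ 4 * (nodal x₀ y₀ α β).c₄ := by
  obtain ⟨ζ, hζ, hj⟩ := exists_root hαβ P hP
  have hsum : ∑ j ∈ Finset.Ico 1 p, tq (j • P) = (α - β) ^ 4 *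
      ∑ j ∈ Finset.Ico 1 p, (6 * (ζ ^ j) ^ 2 / (1 - ζ ^ j) ^ 4 + ζ ^ j / (1 - ζ ^ j) ^ 2) := by
    rw [Finset.mul_sum]
    apply Finset.sum_congr rfl
    intro j hjm
    unfold tq
    rw [(hj j hjm).1, tq_nodal]
    unfold vA
    generalize 1 - ζ ^ j = w
    ring
  have h120 := RootSums89.sum_root_velu hζ hp hpk
  unfold veluC4
  rw [hsum, c₄_nodal]
  linear_combination (α - β) ^ 4 * h120

end Order

section Psi

variable {F : Type*} [Field F] [DecidableEq F] {W : Affine F}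

/-- A nonzero multiple of a point of odd prime order is not a `2`-torsion point. -/
theorem psi2_ne_zero (P : W.Point) {p : ℕ} (hp : p.Prime) (hp2 : p ≠ 2)
    (hP : addOrderOf P = p) {j : ℕ} (hj : j ∈ Finset.Ico 1 p) : psi2 (j • P) ≠ 0 := by
  rw [Finset.mem_Ico] at hj
  intro h0
  have hcop : (addOrderOf P).Coprime j := by
    rw [hP]
    exact (Nat.Prime.coprime_iff_not_dvd hp).mpr (fun hd => by
      have := Nat.le_of_dvd (by omega) hd
      omega)
  have hjP : addOrderOf (j • P) = p := by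
    rw [Nat.Coprime.addOrderOf_nsmul hcop, hP]
  rcases hQ : j • P with _ | ⟨x, y, h⟩
  · rw [hQ] at hjP
    change addOrderOf (0 : W.Point) = p at hjP
    rw [addOrderOf_zero] at hjP
    exact hp.one_lt.ne hjP
  · rw [hQ] at h0 hjP
    simp only [psi2, ptX_some, ptY_some] at h0
    have h2 : (2 : ℕ) • (Point.some x y h) = 0 := by
      rw [two_nsmul]
      refine Point.add_of_Y_eq rfl ?_
      simp only [negY]
      linear_combination h0
    have hdvd := addOrderOf_dvd_of_nsmul_eq_zero h2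
    rw [hjP] at hdvd
    exact hp2 ((Nat.prime_dvd_prime_iff_eq hp Nat.prime_two).mp hdvd)

end Psi

end Fermat.Agent.S15P.M2.NodalGm89
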