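/-
S15 cell, brick (M2) (helper89): a Weierstrass cubic with `Δ = 0`, `c₄ ≠ 0` over an algebraically
closed field is a nodal cubic `nodal x₀ y₀ α β` with `α ≠ β` — every characteristic.

* `2 ≠ 0`: `x₀ = (18 b₆ - b₂ b₄) / c₄`, `y₀ = -(a₁ x₀ + a₃) / 2`, with the identities
  `6N² + b₂ N c₄ + b₄ c₄² = -72 Δ`, `4N³ + b₂ N² c₄ + 2 b₄ N c₄² + b₆ c₄³ = -4 (12 N + b₂ c₄) Δ`
  for `N = 18 b₆ - b₂ b₄`;
* `2 = 0`: `a₁ ≠ 0`, `x₀ = a₃ / a₁`, `y₀ = (x₀² + a₄) / a₁`, with `a₁⁶ F(x₀, y₀) = Δ + 2 G`.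
-/
import Mathlib
import Fermat.Agent.S15P.M2.NodalGm89

set_option autoImplicit false

namespace Fermat.Agent.S15P.M2.NodeExists89

open WeierstrassCurve WeierstrassCurve.Affine Polynomial
open Fermat.Agent.S15P.M2.NodalGm89

variable {k : Type*} [Field k]

/-- The singular point: `F_y = F_x = F = 0` at `(x₀, y₀)`. -/
def IsNode (W : Affine k) (x₀ y₀ : k) : Prop :=
  W.a₃ = -2 * y₀ - W.a₁ * x₀ ∧ W.a₄ = W.a₁ * y₀ - 3 * x₀ ^ 2 - 2 * W.a₂ * x₀ ∧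
    W.a₆ = y₀ ^ 2 + W.a₁ * x₀ * y₀ + W.a₃ * y₀ - x₀ ^ 3 - W.a₂ * x₀ ^ 2 - W.a₄ * x₀

theorem exists_node_of_two_ne_zero (W : Affine k) (hΔ : W.Δ = 0) (hc₄ : W.c₄ ≠ 0)
    (h2 : (2 : k) ≠ 0) : ∃ x₀ y₀ : k, IsNode W x₀ y₀ := by
  have hI1 : 6 * (18 * W.b₆ - W.b₂ * W.b₄) ^ 2 + W.b₂ * (18 * W.b₆ - W.b₂ * W.b₄) * W.c₄ +
      W.b₄ * W.c₄ ^ 2 = -72 * W.Δ := by
    simp only [WeierstrassCurve.Δ, WeierstrassCurve.c₄, WeierstrassCurve.b₂, WeierstrassCurve.b₄,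
      WeierstrassCurve.b₆, WeierstrassCurve.b₈]
    ring
  have hI2 : 4 * (18 * W.b₆ - W.b₂ * W.b₄) ^ 3 + W.b₂ * (18 * W.b₆ - W.b₂ * W.b₄) ^ 2 * W.c₄ +
      2 * W.b₄ * (18 * W.b₆ - W.b₂ * W.b₄) * W.c₄ ^ 2 + W.b₆ * W.c₄ ^ 3 =
      -4 * (12 * (18 * W.b₆ - W.b₂ * W.b₄) + W.b₂ * W.c₄) * W.Δ := by
    simp only [WeierstrassCurve.Δ, WeierstrassCurve.c₄, WeierstrassCurve.b₂, WeierstrassCurve.b₄,
      WeierstrassCurve.b₆, WeierstrassCurve.b₈]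
    ring
  rw [hΔ, mul_zero] at hI1 hI2
  generalize hN : 18 * W.b₆ - W.b₂ * W.b₄ = N at hI1 hI2
  -- `x₀ = N / c₄`
  have hf' : 6 * (N / W.c₄) ^ 2 + W.b₂ * (N / W.c₄) + W.b₄ = 0 := by
    have e : W.c₄ ^ 2 * (6 * (N / W.c₄) ^ 2 + W.b₂ * (N / W.c₄) + W.b₄) =
        6 * N ^ 2 + W.b₂ * N * W.c₄ + W.b₄ * W.c₄ ^ 2 := by
      field_simp
    rw [hI1] at e
    exact (mul_eq_zero.mp e).resolve_left (pow_ne_zero 2 hc₄)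
  have hf : 4 * (N / W.c₄) ^ 3 + W.b₂ * (N / W.c₄) ^ 2 + 2 * W.b₄ * (N / W.c₄) + W.b₆ = 0 := by
    have e : W.c₄ ^ 3 * (4 * (N / W.c₄) ^ 3 + W.b₂ * (N / W.c₄) ^ 2 + 2 * W.b₄ * (N / W.c₄) +
        W.b₆) = 4 * N ^ 3 + W.b₂ * N ^ 2 * W.c₄ + 2 * W.b₄ * N * W.c₄ ^ 2 + W.b₆ * W.c₄ ^ 3 := by
      field_simp
    rw [hI2] at e
    exact (mul_eq_zero.mp e).resolve_left (pow_ne_zero 3 hc₄)
  generalize N / W.c₄ = x₀ at hf hf'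
  simp only [WeierstrassCurve.b₂, WeierstrassCurve.b₄, WeierstrassCurve.b₆] at hf hf'
  obtain ⟨y₀, hy⟩ : ∃ y₀ : k, 2 * y₀ = -(W.a₁ * x₀ + W.a₃) :=
    ⟨-(W.a₁ * x₀ + W.a₃) / 2, by field_simp⟩
  have h4 : (4 : k) ≠ 0 := by
    have e : (4 : k) = 2 * 2 := by norm_num
    rw [e]
    exact mul_ne_zero h2 h2
  refine ⟨x₀, y₀, ?_, ?_, ?_⟩
  · linear_combination hy
  · have h : (2 : k) * (W.a₄ - (W.a₁ * y₀ - 3 * x₀ ^ 2 - 2 * W.a₂ * x₀)) = 0 := by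
      linear_combination hf' - W.a₁ * hy
    have h' := (mul_eq_zero.mp h).resolve_left h2
    linear_combination h'
  · have h : (4 : k) * (W.a₆ - (y₀ ^ 2 + W.a₁ * x₀ * y₀ + W.a₃ * y₀ - x₀ ^ 3 - W.a₂ * x₀ ^ 2 -
        W.a₄ * x₀)) = 0 := by
      linear_combination hf - (2 * y₀ + W.a₁ * x₀ + W.a₃) * hy
    have h' := (mul_eq_zero.mp h).resolve_left h4
    linear_combination h'

theorem exists_node_of_two_eq_zero (W : Affine k) (hΔ : W.Δ = 0) (hc₄ : W.c₄ ≠ 0)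
    (h2 : (2 : k) = 0) : ∃ x₀ y₀ : k, IsNode W x₀ y₀ := by
  have ha₁ : W.a₁ ≠ 0 := by
    intro h0
    apply hc₄
    simp only [WeierstrassCurve.c₄, WeierstrassCurve.b₂, WeierstrassCurve.b₄, h0]
    linear_combination (8 * W.a₂ ^ 2 - 24 * W.a₄) * h2
  have key : W.a₁ ^ 6 * (((W.a₃ / W.a₁) ^ 2 + W.a₄) / W.a₁) ^ 2 +
      W.a₁ ^ 6 * (W.a₁ * (W.a₃ / W.a₁) * (((W.a₃ / W.a₁) ^ 2 + W.a₄) / W.a₁)) +
      W.a₁ ^ 6 * (W.a₃ * (((W.a₃ / W.a₁) ^ 2 + W.a₄) / W.a₁)) -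
      W.a₁ ^ 6 * (W.a₃ / W.a₁) ^ 3 - W.a₁ ^ 6 * (W.a₂ * (W.a₃ / W.a₁) ^ 2) -
      W.a₁ ^ 6 * (W.a₄ * (W.a₃ / W.a₁)) - W.a₁ ^ 6 * W.a₆ =
      W.Δ + 2 * (6 * W.a₁ ^ 4 * W.a₂ * W.a₆ - 4 * W.a₁ ^ 3 * W.a₂ * W.a₃ * W.a₄ -
        18 * W.a₁ ^ 3 * W.a₃ * W.a₆ + 4 * W.a₁ ^ 2 * W.a₂ ^ 2 * W.a₃ ^ 2 +
        24 * W.a₁ ^ 2 * W.a₂ ^ 2 * W.a₆ - 4 * W.a₁ ^ 2 * W.a₂ * W.a₄ ^ 2 +
        16 * W.a₁ ^ 2 * W.a₃ ^ 2 * W.a₄ - 36 * W.a₁ ^ 2 * W.a₄ * W.a₆ -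
        8 * W.a₁ * W.a₂ ^ 2 * W.a₃ * W.a₄ - 18 * W.a₁ * W.a₂ * W.a₃ ^ 3 -
        72 * W.a₁ * W.a₂ * W.a₃ * W.a₆ + 48 * W.a₁ * W.a₃ * W.a₄ ^ 2 + 8 * W.a₂ ^ 3 * W.a₃ ^ 2 +
        32 * W.a₂ ^ 3 * W.a₆ - 8 * W.a₂ ^ 2 * W.a₄ ^ 2 - 36 * W.a₂ * W.a₃ ^ 2 * W.a₄ -
        144 * W.a₂ * W.a₄ * W.a₆ + 14 * W.a₃ ^ 4 + 108 * W.a₃ ^ 2 * W.a₆ + 32 * W.a₄ ^ 3 +
        216 * W.a₆ ^ 2) := by
    simp only [WeierstrassCurve.Δ, WeierstrassCurve.b₂, WeierstrassCurve.b₄,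
      WeierstrassCurve.b₆, WeierstrassCurve.b₈]
    field_simp
    ring
  rw [hΔ, h2, zero_mul, add_zero] at key
  have e : W.a₁ * (W.a₃ / W.a₁) = W.a₃ := by field_simp
  have e' : W.a₁ * (((W.a₃ / W.a₁) ^ 2 + W.a₄) / W.a₁) = (W.a₃ / W.a₁) ^ 2 + W.a₄ := by
    field_simp
  generalize W.a₃ / W.a₁ = x₀ at key e e'
  generalize (x₀ ^ 2 + W.a₄) / W.a₁ = y₀ at key e e'
  refine ⟨x₀, y₀, ?_, ?_, ?_⟩
  · linear_combination (W.a₃ + y₀) * h2 + e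
  · linear_combination (x₀ ^ 2 + W.a₂ * x₀) * h2 - e'
  · have h : W.a₁ ^ 6 * (W.a₆ - (y₀ ^ 2 + W.a₁ * x₀ * y₀ + W.a₃ * y₀ - x₀ ^ 3 - W.a₂ * x₀ ^ 2 -
        W.a₄ * x₀)) = 0 := by
      linear_combination -key
    have h' := (mul_eq_zero.mp h).resolve_left (pow_ne_zero 6 ha₁)
    linear_combination h'

/-- **A cubic with `Δ = 0` and `c₄ ≠ 0` over an algebraically closed field is nodal.** -/
theorem exists_nodal [IsAlgClosed k] (W : Affine k) (hΔ : W.Δ = 0) (hc₄ : W.c₄ ≠ 0) :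
    ∃ x₀ y₀ α β : k, α ≠ β ∧ W = nodal x₀ y₀ α β := by
  obtain ⟨x₀, y₀, h3, h4, h6⟩ : ∃ x₀ y₀ : k, IsNode W x₀ y₀ := by
    by_cases h2 : (2 : k) = 0
    · exact exists_node_of_two_eq_zero W hΔ hc₄ h2
    · exact exists_node_of_two_ne_zero W hΔ hc₄ h2
  obtain ⟨α, hα⟩ := IsAlgClosed.exists_root
    (C (1 : k) * X ^ 2 + C W.a₁ * X + C (-(W.a₂ + 3 * x₀)))
    (by rw [degree_quadratic one_ne_zero]; decide)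
  simp only [IsRoot, eval_add, eval_mul, eval_C, eval_pow, eval_X, one_mul] at hα
  have hW : W = nodal x₀ y₀ α (-W.a₁ - α) := by
    ext
    · simp only [nodal]
      ring
    · simp only [nodal]
      linear_combination -hα
    · simp only [nodal]
      linear_combination h3
    · simp only [nodal]
      linear_combination h4 + 2 * x₀ * hα
    · simp only [nodal]
      linear_combination h6 + y₀ * h3 - x₀ * h4 - x₀ ^ 2 * hα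
  refine ⟨x₀, y₀, α, -W.a₁ - α, ?_, hW⟩
  intro hαβ
  apply hc₄
  rw [hW, c₄_nodal, ← hαβ, sub_self]
  ring

end Fermat.Agent.S15P.M2.NodeExists89
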