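/-
S15 cell, brick (M2), top file (helper89).

`W` an integral Weierstrass model, `Q` a point of prime order `p ≠ 2` over `ℚ̄`, `A` a valuation
subring of `ℚ̄` over a prime `ℓ ≠ p` with `ℓ ∣ Δ`, `ℓ ∤ c₄` (multiplicative reduction).  With
`veluC4 p Q = c₄ + 120 ∑_{0<k<p} (6x_k² + b₂x_k + b₄)` (the `c₄` of the quotient curve `W/⟨Q⟩`)
and `veluPsi p Q = ∏_{0<k<p} (2y_k + a₁x_k + a₃)` (so that `Δ(W/⟨Q⟩) = Δ^p / veluPsi^4`):

* `velu_of_inZero` : if `Q` is in the zero component at `A`, both are units of `A`;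
* `velu_of_not_inZero` : if not, `veluC4` is a unit of `A` and `veluPsi` lies in the maximal
  ideal.

Hence `j(W/⟨Q⟩) / j(W)^p = (veluC4 / c₄^p)³ · veluPsi⁴` is a unit at `A` in the first case and
lies in the maximal ideal in the second.  Every `ℓ ≠ p` (`2` and `3` included).

Inputs: `NodalRed69` (helper69; reduction of the multiples of `Q`, on main's `S58/Red`),
`NodeExists89` (the reduced curve is a nodal cubic), `NodalGm89` (its group is `kˣ`; the sum over
the `p`-th roots of unity).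
-/
import Mathlib
import Fermat.Prelude.Def_EllipticCurve_ZeroComponentAt
import Fermat.Agent.S15P.M2.Defs89
import Fermat.Agent.S15P.M2.NodalGm89
import Fermat.Agent.S15P.M2.NodeExists89
import Fermat.Agent.S15P.M2.NodalRed69

set_option autoImplicit false
set_option linter.unusedSectionVars false
set_option linter.style.haveILetI false

namespace Fermat.Agent.S15P.M2.Velu89

open WeierstrassCurve WeierstrassCurve.Affine IsLocalRing
open Fermat.Agent.S58.Red Fermat.Agent.S15P.M2.NodalRed69 Fermat.Agent.S15P.M2.NodalGm89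
  Fermat.Agent.S15P.M2.NodeExists89

section Gen

variable {K : Type*} [Field K] [DecidableEq K] {A : ValuationSubring K}
  {k : Type*} [Field k] [DecidableEq k] {π : A →+* k}
  {WK : Affine K} {Wk : Affine k}

theorem rd_natCast (n : ℕ) : Rd A π (n : K) (n : k) := by
  have := rd_intCast A π (n : ℤ)
  simpa using this

theorem rd_ofNat (n : ℕ) [n.AtLeastTwo] : Rd A π (OfNat.ofNat n : K) (OfNat.ofNat n : k) := by
  have h := rd_natCast (A := A) (π := π) (OfNat.ofNat n)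
  rwa [Nat.cast_ofNat, Nat.cast_ofNat] at h

theorem Rd.of_eq {x : K} {c c' : k} (h : Rd A π x c) (hc : c = c') : Rd A π x c' := hc ▸ h

theorem rd_sum {ι : Type*} (s : Finset ι) (f : ι → K) (g : ι → k)
    (h : ∀ i ∈ s, Rd A π (f i) (g i)) : Rd A π (∑ i ∈ s, f i) (∑ i ∈ s, g i) := by
  classical
  induction s using Finset.induction_on with
  | empty =>
    rw [Finset.sum_empty, Finset.sum_empty]
    exact rd_zero
  | insert a s ha ih =>
    rw [Finset.sum_insert ha, Finset.sum_insert ha]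
    exact (h a (Finset.mem_insert_self a s)).add
      (ih fun i hi => h i (Finset.mem_insert_of_mem hi))

theorem rd_prod {ι : Type*} (s : Finset ι) (f : ι → K) (g : ι → k)
    (h : ∀ i ∈ s, Rd A π (f i) (g i)) : Rd A π (∏ i ∈ s, f i) (∏ i ∈ s, g i) := by
  classical
  induction s using Finset.induction_on with
  | empty =>
    rw [Finset.prod_empty, Finset.prod_empty]
    exact rd_one
  | insert a s ha ih =>
    rw [Finset.prod_insert ha, Finset.prod_insert ha]
    exact (h a (Finset.mem_insert_self a s)).mul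
      (ih fun i hi => h i (Finset.mem_insert_of_mem hi))

theorem Model.b₂ (M : Model A π WK Wk) : Rd A π WK.b₂ Wk.b₂ :=
  (M.a₁.pow 2).add ((rd_ofNat 4).mul M.a₂)

theorem Model.b₄ (M : Model A π WK Wk) : Rd A π WK.b₄ Wk.b₄ :=
  ((rd_ofNat 2).mul M.a₄).add (M.a₁.mul M.a₃)

theorem Model.c₄ (M : Model A π WK Wk) : Rd A π WK.c₄ Wk.c₄ :=
  ((Model.b₂ M).pow 2).sub ((rd_ofNat 24).mul (Model.b₄ M))

theorem redTo_ptX {P : WK.Point} {P' : Wk.Point} (h : RedTo A π P P') :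
    Rd A π (ptX P) (ptX P') := by
  rcases P with _ | ⟨x, y, hxy⟩ <;> rcases P' with _ | ⟨c, d, g⟩
  · exact rd_zero
  · exact h.elim
  · exact h.elim
  · exact (redTo_some.mp h).1

theorem redTo_ptY {P : WK.Point} {P' : Wk.Point} (h : RedTo A π P P') :
    Rd A π (ptY P) (ptY P') := by
  rcases P with _ | ⟨x, y, hxy⟩ <;> rcases P' with _ | ⟨c, d, g⟩
  · exact rd_zero
  · exact h.elim
  · exact h.elim
  · exact (redTo_some.mp h).2

theorem redTo_tq (M : Model A π WK Wk) {P : WK.Point} {P' : Wk.Point} (h : RedTo A π P P') :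
    Rd A π (tq P) (tq P') :=
  (((rd_ofNat 6).mul ((redTo_ptX h).pow 2)).add ((Model.b₂ M).mul (redTo_ptX h))).add (Model.b₄ M)

theorem redTo_psi2 (M : Model A π WK Wk) {P : WK.Point} {P' : Wk.Point} (h : RedTo A π P P') :
    Rd A π (psi2 P) (psi2 P') :=
  (((rd_ofNat 2).mul (redTo_ptY h)).add (M.a₁.mul (redTo_ptX h))).add M.a₃

/-- If every `j • Q` reduces to `j • Q'`, the Vélu quantities of `Q` reduce to those of `Q'`. -/
theorem redTo_veluC4 (M : Model A π WK Wk) {Q : WK.Point} {Q' : Wk.Point} (p : ℕ)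
    (h : ∀ j : ℕ, RedTo A π (j • Q) (j • Q')) : Rd A π (veluC4 p Q) (veluC4 p Q') :=
  (Model.c₄ M).add ((rd_ofNat 120).mul (rd_sum _ _ _ fun j _ => redTo_tq M (h j)))

theorem redTo_veluPsi (M : Model A π WK Wk) {Q : WK.Point} {Q' : Wk.Point} (p : ℕ)
    (h : ∀ j : ℕ, RedTo A π (j • Q) (j • Q')) : Rd A π (veluPsi p Q) (veluPsi p Q') :=
  rd_prod _ _ _ fun j _ => redTo_psi2 M (h j)

/-- At a singular point of a Weierstrass cubic, `2y + a₁x + a₃ = 0` and `6x² + b₂x + b₄ = 0`. -/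
theorem sing_eqs {c d : k} (he : Wk.Equation c d) (hs : ¬ Wk.Nonsingular c d) :
    2 * d + Wk.a₁ * c + Wk.a₃ = 0 ∧ 6 * c ^ 2 + Wk.b₂ * c + Wk.b₄ = 0 := by
  rw [nonsingular_iff] at hs
  have h1 : Wk.a₁ * d = 3 * c ^ 2 + 2 * Wk.a₂ * c + Wk.a₄ := by
    by_contra h
    exact hs ⟨he, Or.inl h⟩
  have h2 : d = -d - Wk.a₁ * c - Wk.a₃ := by
    by_contra h
    exact hs ⟨he, Or.inr h⟩
  have h3 : 2 * d + Wk.a₁ * c + Wk.a₃ = 0 := by linear_combination h2
  refine ⟨h3, ?_⟩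
  simp only [WeierstrassCurve.b₂, WeierstrassCurve.b₄]
  linear_combination Wk.a₁ * h3 - 2 * h1

/-- The Vélu `c₄` of a nodal cubic over an algebraically closed field, at a point of order `p`
prime to the characteristic. -/
theorem veluC4_of_singular [IsAlgClosed k] (W' : Affine k) (hΔ : W'.Δ = 0) (hc₄ : W'.c₄ ≠ 0)
    (P : W'.Point) {p : ℕ} (hp : 0 < p) (hP : addOrderOf P = p) (hpk : (p : k) ≠ 0) :
    veluC4 p P = (p : k) ^ 4 * W'.c₄ := by
  obtain ⟨x₀, y₀, α, β, hαβ, rfl⟩ := exists_nodal W' hΔ hc₄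
  exact veluC4_nodal hαβ P hp hP hpk

end Gen

section Val

variable {A : ValuationSubring (AlgebraicClosure ℚ)}

theorem val_eq_one_of_rd {x : AlgebraicClosure ℚ} {c : ResidueField A}
    (h : Rd A (residue A) x c) (hc : c ≠ 0) : A.valuation x = 1 := by
  obtain ⟨a, rfl, rfl⟩ := h
  have hu : IsUnit a := by
    by_contra hnu
    exact hc ((residue_eq_zero_iff a).mpr ((mem_maximalIdeal a).mpr hnu))
  exact (A.valuation_eq_one_iff a).mp hu

theorem val_lt_one_of_rd {x : AlgebraicClosure ℚ} (h : Rd A (residue A) x 0) :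
    A.valuation x < 1 := by
  obtain ⟨a, rfl, ha⟩ := h
  exact (A.valuation_lt_one_iff a).mp ((residue_eq_zero_iff a).mp ha)

end Val

section Main

variable (W : WeierstrassCurve ℤ) {p : ℕ}
  (Q : ((W.map (Int.castRingHom ℚ))⁄(AlgebraicClosure ℚ)).Point)
  {ℓ : ℕ} (A : ValuationSubring (AlgebraicClosure ℚ))

/-- The reduced curve has `Δ = 0` and `c₄ ≠ 0`. -/
theorem reduced_disc (hℓ : ℓ.Prime) (hℓΔ : (ℓ : ℤ) ∣ W.Δ) (hℓc₄ : ¬ (ℓ : ℤ) ∣ W.c₄)
    (hA : A.LiesOverPrime ℓ) :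
    (W.map (Int.castRingHom (ResidueField A))).toAffine.Δ = 0 ∧
      (W.map (Int.castRingHom (ResidueField A))).toAffine.c₄ ≠ 0 := by
  have : CharP (ResidueField A) ℓ :=
    Fermat.Agent.ESJ.Cong.ConjAnalytic.charP_residueField_of_liesOver A hℓ hA
  constructor
  · change (W.map (Int.castRingHom (ResidueField A))).Δ = 0
    rw [map_Δ]
    exact (CharP.intCast_eq_zero_iff (ResidueField A) ℓ W.Δ).mpr hℓΔ
  · change (W.map (Int.castRingHom (ResidueField A))).c₄ ≠ 0
    rw [map_c₄]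
    exact fun h => hℓc₄ ((CharP.intCast_eq_zero_iff (ResidueField A) ℓ W.c₄).mp h)

/-- **(M2), zero-component case.** -/
theorem velu_of_inZero (hp : p.Prime) (hp2 : p ≠ 2) (hQord : addOrderOf Q = p)
    (hℓ : ℓ.Prime) (hℓp : ℓ ≠ p) (hℓΔ : (ℓ : ℤ) ∣ W.Δ) (hℓc₄ : ¬ (ℓ : ℤ) ∣ W.c₄)
    (hA : A.LiesOverPrime ℓ) (hin : W.InZeroComponentAt A Q) :
    A.valuation (veluC4 p Q) = 1 ∧ A.valuation (veluPsi p Q) = 1 := by
  let _ : DecidableEq (ResidueField A) := Classical.decEq _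
  have : IsAlgClosed (ResidueField A) := Fermat.Agent.Lib.FF.CharP.isAlgClosed_residueField A
  have M := model_res W A
  obtain ⟨hΔ', hc₄'⟩ := reduced_disc W A hℓ hℓΔ hℓc₄ hA
  have hpQ : p • Q = 0 := by rw [← hQord]; exact addOrderOf_nsmul_eq_zero Q
  obtain ⟨hpk, -⟩ := mem_torsSub_of_order (W := W) hp hℓ hℓp hA hpQ
  obtain ⟨Q', hQ'ord, hred⟩ := exists_red_of_inZero hp hℓ hℓp hA hQord hin
  constructor
  · refine val_eq_one_of_rd (redTo_veluC4 M p hred) ?_
    rw [veluC4_of_singular _ hΔ' hc₄' Q' hp.pos hQ'ord hpk]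
    exact mul_ne_zero (pow_ne_zero 4 hpk) hc₄'
  · refine val_eq_one_of_rd (redTo_veluPsi M p hred) ?_
    unfold veluPsi
    rw [Finset.prod_ne_zero_iff]
    intro j hj
    exact psi2_ne_zero Q' hp hp2 hQ'ord hj

/-- **(M2), other case.** -/
theorem velu_of_not_inZero (hp : p.Prime) (hQord : addOrderOf Q = p)
    (hℓ : ℓ.Prime) (hℓp : ℓ ≠ p) (hℓΔ : (ℓ : ℤ) ∣ W.Δ) (hℓc₄ : ¬ (ℓ : ℤ) ∣ W.c₄)
    (hA : A.LiesOverPrime ℓ) (hout : ¬ W.InZeroComponentAt A Q) :
    A.valuation (veluC4 p Q) = 1 ∧ A.valuation (veluPsi p Q) < 1 := by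
  let _ : DecidableEq (ResidueField A) := Classical.decEq _
  have M := model_res W A
  obtain ⟨-, hc₄'⟩ := reduced_disc W A hℓ hℓΔ hℓc₄ hA
  have key : ∀ j ∈ Finset.Ico 1 p, Rd A (residue A) (tq (j • Q)) 0 ∧
      Rd A (residue A) (psi2 (j • Q)) 0 := by
    intro j hj
    rw [Finset.mem_Ico] at hj
    have hpj : ¬ p ∣ j := fun hd => by
      have := Nat.le_of_dvd (by omega) hd
      omega
    obtain ⟨x, y, h, c, d, hjQ, rx, ry, he, hs⟩ :=
      sing_of_not_inZero hp hℓ hℓp hA hQord hout j hpj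
    obtain ⟨e1, e2⟩ := sing_eqs he hs
    rw [hjQ]
    constructor
    · exact Rd.of_eq ((((rd_ofNat 6).mul (rx.pow 2)).add ((Model.b₂ M).mul rx)).add
        (Model.b₄ M)) e2
    · exact Rd.of_eq ((((rd_ofNat 2).mul ry).add (M.a₁.mul rx)).add M.a₃) e1
  constructor
  · have r : Rd A (residue A) (veluC4 p Q)
        ((W.map (Int.castRingHom (ResidueField A))).toAffine.c₄ +
          120 * ∑ j ∈ Finset.Ico 1 p, (0 : ResidueField A)) :=
      (Model.c₄ M).add ((rd_ofNat 120).mul (rd_sum _ _ _ fun j hj => (key j hj).1))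
    refine val_eq_one_of_rd r ?_
    rw [Finset.sum_const_zero, mul_zero, add_zero]
    exact hc₄'
  · have r : Rd A (residue A) (veluPsi p Q) (∏ j ∈ Finset.Ico 1 p, (0 : ResidueField A)) :=
      rd_prod _ _ _ fun j hj => (key j hj).2
    refine val_lt_one_of_rd (Rd.of_eq r ?_)
    exact Finset.prod_eq_zero (Finset.mem_Ico.mpr ⟨le_refl 1, hp.one_lt⟩) rfl

end Main

end Fermat.Agent.S15P.M2.Velu89
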